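import Fermat.Agent.S35.Defs

/-!
# S35 library, (n0): the degree of `π₁`
-/

set_option autoImplicit false
set_option synthInstance.maxHeartbeats 400000

open AlgebraicCurve IntermediateField Polynomial ModularCurve CongruenceSubgroup
  Fermat.Agent.S24Lib Fermat.Agent.FFLib Fermat.Agent.S18Lib Fermat.Agent.S28Lib
  Fermat.Agent.ESLib Fermat.Agent.S34Lib

namespace Fermat.Agent.S35Lib

noncomputable section

variable (M q : ℕ) [NeZero M] [NeZero q] [hqF : Fact q.Prime] (hqM : ¬ q ∣ M)

include hqM in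
theorem finrank_pi1 :
    letI := algebraAlong (pi1 M q)
    Module.finrank (FB M) (FB (q * M)) = q + 1 := by
  have hle : FB M ≤ FB (q * M) := FB_le M q
  have hd := D2_degree hle
  have h1 : (Gamma0 (q * M)).index = (Gamma0 M).index * (q + 1) := by
    rw [Fermat.Agent.S20Lib.index_Gamma0 (q * M),
      Fermat.Agent.S20Lib.dedekindPsi_mul_of_not_dvd (NeZero.ne M) hqF.out hqM,
      ← Fermat.Agent.S20Lib.index_Gamma0 M, mul_comm]
  rw [h1] at hd
  exact (Nat.eq_of_mul_eq_mul_left (Nat.pos_of_ne_zero (D2_index_ne_zero M)) hd).symm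

end

end Fermat.Agent.S35Lib
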