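import Fermat.Agent.S35.Defs
import Fermat.Agent.S35.Finrank
import Fermat.Agent.S36.NrmEmb
import Fermat.Agent.ES.Formal

/-!
# S35 library, (n4): the norm along `π₁` in terms of `q`-expansions
-/

set_option autoImplicit false
set_option linter.style.haveILetI false
set_option synthInstance.maxHeartbeats 400000

open AlgebraicCurve IntermediateField Polynomial ModularCurve CongruenceSubgroup
  Fermat.Agent.S24Lib Fermat.Agent.FFLib Fermat.Agent.S18Lib Fermat.Agent.S28Lib
  Fermat.Agent.ESLib Fermat.Agent.S34Lib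

namespace Fermat.Agent.S35Lib

noncomputable section

/-- the norm as a product over a complete list of embeddings, `along` form -/
theorem n4_norm_prod {F E L : Type*} [Field F] [Field E] [Field L] [CharZero F] (φ : F →+* E)
    (ψ : F →+* L) {ι : Type*} [Fintype ι] [Nonempty ι] (σ : ι → E →+* L)
    (hσφ : ∀ i x, σ i (φ x) = ψ x) (hinj : Function.Injective σ)
    (hcard : Fintype.card ι = (letI := φ.toAlgebra; Module.finrank F E)) (x : E) :
    ψ (letI := φ.toAlgebra; Algebra.norm F x) = ∏ i, σ i x := by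
  letI := φ.toAlgebra
  letI := ψ.toAlgebra
  haveI : FiniteDimensional F E := Module.finite_of_finrank_pos (by
    rw [← hcard]; exact Fintype.card_pos)
  let σ' : ι → E →ₐ[F] L := fun i => { σ i with commutes' := fun y => hσφ i y }
  have hσ' : Function.Injective σ' := by
    intro a b hab
    apply hinj
    ext y
    exact DFunLike.congr_fun hab y
  exact Fermat.Agent.S36Lib.norm_eq_prod_of_injective σ' hσ' hcard x

variable (M q : ℕ) [NeZero M] [NeZero q] [hqF : Fact q.Prime] (hqM : ¬ q ∣ M)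

omit hqF in
theorem n4_coe_pi1 (z : FB M) : ((pi1 M q z : FB (q * M)) : LaurentSeries Qb) = z := by
  obtain ⟨s, hs⟩ := z
  have : pi1 M q ⟨s, hs⟩ = ⟨s, FB_le M q hs⟩ := rfl
  rw [this]

theorem n4_coe_wq_pi1 (z : FB M) :
    ((wq M q hqM (pi1 M q z) : FB (q * M)) : LaurentSeries Qb) = qExpand Qb q z := by
  obtain ⟨s, hs⟩ := z
  have : pi1 M q ⟨s, hs⟩ = ⟨s, FB_le M q hs⟩ := rfl
  rw [this]
  exact coe_wq M q hqM s hs _

theorem n4_coeff_J : (Wq_J 1).coeff (-1 : ℤ) = 1 := by
  rw [Wq_J_eq, qExpand_one_apply, coeffEmb, coeffMap_coeff, coeff_jq_neg_one, map_one]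

/-- the `q + 1` embeddings -/
def n4_emb : Option (rootsOfUnity q Qb) → FB (q * M) →+* LaurentSeries Qb
  | none => (qExpand Qb q).comp (FB (q * M)).val.toRingHom
  | some z => (twistHom (z : Qbˣ)).comp
      ((FB (q * M)).val.toRingHom.comp (wq M q hqM : FB (q * M) →+* FB (q * M)))

theorem n4_emb_none (f : FB (q * M)) :
    n4_emb M q hqM none f = qExpand Qb q (f : LaurentSeries Qb) := rfl

theorem n4_emb_some (z : rootsOfUnity q Qb) (f : FB (q * M)) :
    n4_emb M q hqM (some z) f =
      twist (z : Qbˣ) ((wq M q hqM f : FB (q * M)) : LaurentSeries Qb) := rfl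

theorem n4_emb_injective : Function.Injective (n4_emb M q hqM) := by
  let x0 : FB M := ⟨Wq_J 1, Wq_J_mem (one_dvd M)⟩
  let f0 : FB (q * M) := wq M q hqM (pi1 M q x0)
  have hnone : (n4_emb M q hqM none f0).coeff (-1 : ℤ) = 0 := by
    rw [n4_emb_none]
    apply qExpand_coeff_of_not_dvd
    intro h
    have h1 : (q : ℤ) ∣ 1 := by simpa using h
    have h2 : q ∣ 1 := by exact_mod_cast h1
    exact hqF.out.one_lt.ne' (Nat.dvd_one.1 h2)
  have hsome : ∀ z : rootsOfUnity q Qb, (n4_emb M q hqM (some z) f0).coeff (-1 : ℤ) =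
      (((z : Qbˣ) ^ (-1 : ℤ) : Qbˣ) : Qb) := by
    intro z
    rw [n4_emb_some, wq_wq, n4_coe_pi1, twist_coeff]
    show _ * (Wq_J 1).coeff (-1 : ℤ) = _
    rw [n4_coeff_J, mul_one]
  intro a b hab
  have hc := congrArg (fun e : FB (q * M) →+* LaurentSeries Qb => (e f0).coeff (-1 : ℤ)) hab
  rcases a with _ | a <;> rcases b with _ | b
  · rfl
  · rw [hnone, hsome] at hc
    exact absurd hc.symm (Units.ne_zero _)
  · rw [hnone, hsome] at hc
    exact absurd hc (Units.ne_zero _)
  · rw [hsome, hsome] at hc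
    have h1 : ((a : Qbˣ) ^ (-1 : ℤ) : Qbˣ) = (b : Qbˣ) ^ (-1 : ℤ) := Units.ext hc
    rw [zpow_neg_one, zpow_neg_one, inv_inj] at h1
    exact congrArg some (Subtype.ext h1)

theorem coe_nm (f : FB (q * M)) :
    ((nm M q f : FB M) : LaurentSeries Qb)
      = (f : LaurentSeries Qb) * normL q ((wq M q hqM f : FB (q * M)) : LaurentSeries Qb) := by
  obtain ⟨ζ, hζ⟩ := exists_primitiveRoot_Qb q
  letI : Fintype (rootsOfUnity q Qb) := Fintype.ofFinite _
  have hcard : Fintype.card (Option (rootsOfUnity q Qb)) =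
      (letI := (pi1 M q).toRingHom.toAlgebra; Module.finrank (FB M) (FB (q * M))) := by
    rw [Fintype.card_option, ← Nat.card_eq_fintype_card, hζ.card_rootsOfUnity]
    exact (finrank_pi1 M q hqM).symm
  have key := n4_norm_prod (pi1 M q).toRingHom ((qExpand Qb q).comp (FB M).val.toRingHom)
    (n4_emb M q hqM) (by
      intro i x
      show n4_emb M q hqM i (pi1 M q x) = qExpand Qb q (x : LaurentSeries Qb)
      rcases i with _ | z
      · rw [n4_emb_none, n4_coe_pi1]
      · rw [n4_emb_some, n4_coe_wq_pi1]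
        exact twist_qExpand q _ ((mem_rootsOfUnity _ _).1 z.2) _)
    (n4_emb_injective M q hqM) hcard f
  apply qExpand_injective (R := Qb) q
  rw [map_mul, qExpand_normL q ⟨ζ, hζ⟩]
  rw [Fintype.prod_option] at key
  refine Eq.trans ?_ (key.trans ?_)
  · rfl
  · rw [n4_emb_none]
    congr 1

end

end Fermat.Agent.S35Lib
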