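import Fermat.Agent.S35.Defs
import Fermat.Agent.S34.LevelDescent
import Fermat.Agent.S36.NrmEmb
import Fermat.Agent.S36.NrmKum

/-! # S35 (n1) (n2): the norm `nm` commutes with Galois and preserves Kummer generators -/

set_option autoImplicit false
set_option synthInstance.maxHeartbeats 400000

open AlgebraicCurve IntermediateField Polynomial ModularCurve CongruenceSubgroup
  Fermat.Agent.S24Lib Fermat.Agent.FFLib Fermat.Agent.S18Lib Fermat.Agent.S28Lib
  Fermat.Agent.ESLib Fermat.Agent.S34Lib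

namespace Fermat.Agent.S35Lib

noncomputable section

variable (M q : ℕ) [NeZero M] [NeZero q] [hqF : Fact q.Prime] (hqM : ¬ q ∣ M)

include hqM in
theorem nm_gal (σ : GQ) (f : FB (q * M)) : nm M q (gal (q * M) σ f) = gal M σ (nm M q f) :=
  Fermat.Agent.S36Lib.norm_along_equiv (pi1 M q).toRingHom (pi1 M q).toRingHom (gal M σ)
    (gal (q * M) σ) (fun x => (LV_gal_inclusion (FB_le M q) σ x).symm) f

include hqM in
theorem isKum_nm (m : ℕ) (f : FB (q * M)) (hf : IsKum (q * M) m f) : IsKum M m (nm M q f) :=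
  Fermat.Agent.S36Lib.nrm_isKum (pi1 M q) hf

theorem isKum_wq (m : ℕ) (f : FB (q * M)) (hf : IsKum (q * M) m f) :
    IsKum (q * M) m (wq M q hqM f) := by
  refine ⟨(map_ne_zero_iff _ (wq M q hqM).injective).2 hf.1, fun P => ?_⟩
  have hv : P = (wq M q hqM) • ((wq M q hqM)⁻¹ • P) := by
    rw [smul_smul, mul_inv_cancel, one_smul]
  rw [hv, Place.ord_smul]
  exact hf.2 _

end

end Fermat.Agent.S35Lib
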