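import Fermat.Agent.S35.FrobToric

/-!
# S35 package, ABSTRACT part, leaf (A2): `(t⁴ f) f^Q / (t² f)^(Q+1)` is an `r`-th power

`t` acts on the reduction `Ft × Ft` by `(φ, φ)`; `φ²` raises the values at the nodes to the `Q`-th
power; the two "norms" `a φ(b)`, `b φ(a)` of the reduction `(a, b)` of the unit part of `f` are
`r`-th powers.
-/

set_option autoImplicit false

open AlgebraicCurve IntermediateField Polynomial Fermat.Agent.S24Lib Fermat.Agent.FFLib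
  Fermat.Agent.S18Lib Fermat.Agent.S34Lib

namespace Fermat.Agent.S35Lib

section A2

variable {K k F Ft : Type*} [Field K] [Field k] [Field F] [Algebra K F] [Field Ft] [Algebra k Ft]
  {A : ValuationSubring K} {resK : A →+* k}

/-- the operator `g ↦ (T² g) g^Q / (T g)^(Q+1)` -/
noncomputable def A2_X (T : SemilinearAut K F) (Q : ℕ) (g : F) : F :=
  T • T • g * g ^ Q * ((T • g) ^ (Q + 1))⁻¹

theorem A2_X_mul (T : SemilinearAut K F) (Q : ℕ) (g₁ g₂ : F) :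
    A2_X T Q (g₁ * g₂) = A2_X T Q g₁ * A2_X T Q g₂ := by
  simp only [A2_X, smul_mul', mul_pow, mul_inv]
  ring

theorem A2_X_pow (T : SemilinearAut K F) (Q : ℕ) (g : F) (n : ℕ) :
    A2_X T Q (g ^ n) = A2_X T Q g ^ n := by
  simp only [A2_X, smul_pow', mul_pow, inv_pow]
  congr 1
  · congr 1
    rw [← pow_mul, ← pow_mul, mul_comm]
  · rw [← pow_mul, ← pow_mul, mul_comm]

theorem A2_X_algebraMap (T : SemilinearAut K F) (Q : ℕ) (c : K) :
    ∃ d : K, A2_X T Q (algebraMap K F c) = algebraMap K F d := by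
  refine ⟨SemilinearAut.baseAut T (SemilinearAut.baseAut T c) * c ^ Q *
    ((SemilinearAut.baseAut T c) ^ (Q + 1))⁻¹, ?_⟩
  simp only [A2_X, SemilinearAut.smul_algebraMap, map_mul, map_pow, map_inv₀]

theorem frob_abstract (hF : IsFF K F) (hFt : IsFF k Ft) [IsAlgClosed K] [IsAlgClosed k]
    (hres : Function.Surjective resK)
    (R : RedG A resK F (Ft × Ft)) (x : R.O) (hx₁ : Transcendental k (R.red x).1)
    (hx₂ : Transcendental k (R.red x).2)
    (S : Finset (Place k Ft × Place k Ft)) (n₀ : ℕ)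
    (hS : IsNodeData (R.red x).1 (R.red x).2 S) (hW : HW R hres x S n₀)
    (r : ℕ) (hr : (r : k) ≠ 0)
    (Q : ℕ) (t : SemilinearAut K F) (φ : Ft →+* Ft)
    (ht : ∀ y : R.O, ∃ h : t • ((y : R.O) : F) ∈ R.O,
      R.red ⟨_, h⟩ = (φ (R.red y).1, φ (R.red y).2))
    (htx : t • ((x : R.O) : F) = x)
    (hφ : ∀ s ∈ S, ∀ (n : ℕ) (p : Ft × Ft), p ∈ Lt k (R.red x).1 (R.red x).2 n →
      evP s.1 (φ (φ p.1)) = evP s.1 p.1 ^ Q ∧ evP s.2 (φ (φ p.2)) = evP s.2 p.2 ^ Q)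
    (f : F) (hf : f ≠ 0) (hfr : ∀ v : Place K F, (r : ℤ) ∣ v.ord f)
    (hN : ∀ (c : K) (G : F) (h : R.O), c ≠ 0 → G ≠ 0 → IsUnit (R.red h) →
      f = algebraMap K F c * G ^ r * ((h : R.O) : F) →
      ∃ e₁ e₂ : Ft, (R.red h).1 * φ (R.red h).2 = e₁ ^ r ∧ (R.red h).2 * φ (R.red h).1 = e₂ ^ r) :
    ∃ v : F, t • t • t • t • f * f ^ Q = v ^ r * (t • t • f) ^ (Q + 1) := by
  classical
  have hr0 : 0 < r := Nat.pos_of_ne_zero (by rintro rfl; simp at hr)
  obtain ⟨c, G, h, hc, hG, hhu, hfe⟩ := exists_normalize hres R f hf r hr0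
  obtain ⟨e₁, e₂, he₁, he₂⟩ := hN c G h hc hG hhu hfe
  have hcF : algebraMap K F c ≠ 0 := by simpa using hc
  set T : SemilinearAut K F := t * t with hT
  have hTs : ∀ g : F, T • g = t • t • g := fun g => mul_smul t t g
  -- the action of `T` on `O`
  have hTO : ∀ y : R.O, ∃ h' : T • ((y : R.O) : F) ∈ R.O,
      R.red ⟨_, h'⟩ = (fun p : Ft × Ft => (φ (φ p.1), φ (φ p.2))) (R.red y) := by
    intro y
    obtain ⟨h1, e1⟩ := ht y
    obtain ⟨h2, e2⟩ := ht ⟨_, h1⟩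
    refine ⟨by rw [hTs]; exact h2, ?_⟩
    have : (⟨T • ((y : R.O) : F), by rw [hTs]; exact h2⟩ : R.O) =
        ⟨t • (((⟨t • ((y : R.O) : F), h1⟩ : R.O) : R.O) : F), h2⟩ := Subtype.ext (hTs _)
    rw [this, e2, e1]
  -- `a`, `b`
  obtain ⟨ha0, hb0⟩ : (R.red h).1 ≠ 0 ∧ (R.red h).2 ≠ 0 := by
    have := Prod.isUnit_iff.1 hhu
    exact ⟨this.1.ne_zero, this.2.ne_zero⟩
  set a : Ft := (R.red h).1 with ha
  set b : Ft := (R.red h).2 with hb
  have hφ0 : ∀ z : Ft, z ≠ 0 → φ z ≠ 0 := fun z hz => by rwa [Ne, map_eq_zero]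
  have he₁0 : e₁ ≠ 0 := by
    rintro rfl
    rw [zero_pow hr0.ne'] at he₁
    exact mul_ne_zero ha0 (hφ0 _ hb0) he₁
  have he₂0 : e₂ ≠ 0 := by
    rintro rfl
    rw [zero_pow hr0.ne'] at he₂
    exact mul_ne_zero hb0 (hφ0 _ ha0) he₂
  have hA : φ (φ a) = a * (φ e₂ / e₁) ^ r := by
    have h1 : φ (φ a) * e₁ ^ r = a * φ e₂ ^ r := by
      rw [← he₁, ← map_pow, ← he₂, map_mul]
      ring
    rw [div_pow, mul_div_assoc', eq_div_iff (pow_ne_zero _ he₁0), h1]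
  have hB : φ (φ b) = b * (φ e₁ / e₂) ^ r := by
    have h1 : φ (φ b) * e₂ ^ r = b * φ e₁ ^ r := by
      rw [← he₂, ← map_pow, ← he₁, map_mul]
      ring
    rw [div_pow, mul_div_assoc', eq_div_iff (pow_ne_zero _ he₂0), h1]
  -- the lift `E`
  obtain ⟨E, hE⟩ := R.red_surjective (φ e₂ / e₁, φ e₁ / e₂)
  have hEu : IsUnit E := R.isUnit_of_red E (by
    rw [hE, Prod.isUnit_iff]
    exact ⟨(div_ne_zero (hφ0 _ he₂0) he₁0).isUnit, (div_ne_zero (hφ0 _ he₁0) he₂0).isUnit⟩)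
  obtain ⟨Ei, hEi⟩ := hEu.exists_right_inv
  obtain ⟨hi, hhi⟩ := (R.isUnit_of_red h hhu).exists_right_inv
  have hEiF : ((E : R.O) : F) * ((Ei : R.O) : F) = 1 := by
    have := congrArg (fun z : R.O => (z : F)) hEi
    simpa using this
  have hhiF : ((h : R.O) : F) * ((hi : R.O) : F) = 1 := by
    have := congrArg (fun z : R.O => (z : F)) hhi
    simpa using this
  have hE0 : ((E : R.O) : F) ≠ 0 := left_ne_zero_of_mul_eq_one hEiF
  have hh0 : ((h : R.O) : F) ≠ 0 := left_ne_zero_of_mul_eq_one hhiF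
  have hEiF' : ((Ei : R.O) : F) = ((E : R.O) : F)⁻¹ := eq_inv_of_mul_eq_one_right hEiF
  have hhiF' : ((hi : R.O) : F) = ((h : R.O) : F)⁻¹ := eq_inv_of_mul_eq_one_right hhiF
  obtain ⟨hTh, hThred⟩ := hTO h
  set Th : R.O := ⟨T • ((h : R.O) : F), hTh⟩ with hThdef
  have hTh0 : T • ((h : R.O) : F) ≠ 0 := by
    rw [Ne, smul_eq_zero_iff_eq]
    exact hh0
  set u : R.O := Th * hi * Ei ^ r with hu
  have huF : ((u : R.O) : F) = T • ((h : R.O) : F) * ((h : R.O) : F)⁻¹ *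
      (((E : R.O) : F) ^ r)⁻¹ := by
    rw [← inv_pow, ← hEiF', ← hhiF']
    rfl
  have hured : R.red u = 1 := by
    have h1 : R.red u * (R.red h * R.red E ^ r) = R.red h * R.red E ^ r := by
      have e1 : u * (h * E ^ r) = Th := by
        rw [hu]
        calc Th * hi * Ei ^ r * (h * E ^ r) = Th * (h * hi) * (E * Ei) ^ r := by
              rw [mul_pow]; ring
          _ = Th := by rw [hhi, hEi, one_pow, mul_one, mul_one]
      rw [← map_pow, ← map_mul, ← map_mul, e1, hThred, map_mul, map_pow, hE]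
      ext
      · simp only [Prod.fst_mul, Prod.pow_fst]
        exact hA
      · simp only [Prod.snd_mul, Prod.pow_snd]
        exact hB
    have h2 : IsUnit (R.red h * R.red E ^ r) := hhu.mul ((hEu.map R.red).pow r)
    exact h2.mul_left_injective (by simpa using h1)
  -- `r ∣ ord h`
  have hhr : ∀ v : Place K F, (r : ℤ) ∣ v.ord ((h : R.O) : F) := by
    intro v
    have h1 := hfr v
    rw [hfe, v.ord_mul (mul_ne_zero hcF (pow_ne_zero _ hG)) hh0, v.ord_mul hcF (pow_ne_zero _ hG),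
      ord_algebraMap, zero_add, ma_ord_pow] at h1
    exact (Int.dvd_add_right (Dvd.intro _ rfl)).1 h1
  have hur : ∀ v : Place K F, (r : ℤ) ∣ v.ord ((u : R.O) : F) := by
    intro v
    rw [huF, v.ord_mul (mul_ne_zero hTh0 (inv_ne_zero hh0)) (inv_ne_zero (pow_ne_zero _ hE0)),
      v.ord_mul hTh0 (inv_ne_zero hh0), v.ord_inv, v.ord_inv, ma_ord_pow, GA_ord_smul]
    exact dvd_add (dvd_add (hhr _) ((dvd_neg).2 (hhr v))) ((dvd_neg).2 (Dvd.intro _ rfl))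
  obtain ⟨w, hw⟩ := frob_toric hF hFt hres R x hx₁ hx₂ S n₀ hS hW r hr Q T
    (fun p : Ft × Ft => (φ (φ p.1), φ (φ p.2))) hTO (by rw [hTs, htx, htx])
    (fun s hs n p hp => hφ s hs n p hp) u hured hur
  -- `X h` is an `r`-th power
  have hTE0 : T • ((E : R.O) : F) ≠ 0 := by
    rw [Ne, smul_eq_zero_iff_eq]
    exact hE0
  have hXh : A2_X T Q ((h : R.O) : F) =
      (w * T • ((E : R.O) : F) * (((E : R.O) : F) ^ Q)⁻¹) ^ r := by
    rw [huF] at hw
    simp only [smul_mul', smul_inv'', smul_pow'] at hw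
    have hEr : ((E : R.O) : F) ^ r ≠ 0 := pow_ne_zero _ hE0
    have hTEr : (T • ((E : R.O) : F)) ^ r ≠ 0 := pow_ne_zero _ hTE0
    have e1 : T • T • ((h : R.O) : F) = w ^ r * (T • ((h : R.O) : F) * ((h : R.O) : F)⁻¹ *
        (((E : R.O) : F) ^ r)⁻¹) ^ Q * (T • ((h : R.O) : F)) * (T • ((E : R.O) : F)) ^ r := by
      rw [← hw]
      field_simp
    rw [A2_X, e1]
    simp only [mul_pow, inv_pow]
    have hhQ : ((h : R.O) : F) ^ Q ≠ 0 := pow_ne_zero _ hh0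
    have hThQ : (T • ((h : R.O) : F)) ^ (Q + 1) ≠ 0 := pow_ne_zero _ hTh0
    field_simp
    ring
  obtain ⟨d, hd⟩ := A2_X_algebraMap T Q c
  obtain ⟨d', hd'⟩ := IsAlgClosed.exists_pow_nat_eq d hr0
  have hXf : A2_X T Q f = (algebraMap K F d' * A2_X T Q G *
      (w * T • ((E : R.O) : F) * (((E : R.O) : F) ^ Q)⁻¹)) ^ r := by
    rw [hfe, A2_X_mul, A2_X_mul, A2_X_pow, hd, hXh, ← hd', map_pow]
    ring
  refine ⟨algebraMap K F d' * A2_X T Q G *
      (w * T • ((E : R.O) : F) * (((E : R.O) : F) ^ Q)⁻¹), ?_⟩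
  rw [← hXf, A2_X, hTs, hTs]
  have hTf0 : (t • t • f) ^ (Q + 1) ≠ 0 := by
    apply pow_ne_zero
    rw [Ne, smul_eq_zero_iff_eq, smul_eq_zero_iff_eq]
    exact hf
  rw [mul_assoc (t • t • t • t • f * f ^ Q), inv_mul_cancel₀ hTf0, mul_one]

end A2

end Fermat.Agent.S35Lib
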