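import Fermat.Agent.S35.Defs
import Fermat.Agent.S34.RedG2Cor
import Fermat.Agent.ES.Integral

/-!
# S35 library, (B1): a Frobenius lift acts on the joint reduction by `(Fr, Fr)`
-/

set_option autoImplicit false
set_option linter.style.haveILetI false
set_option synthInstance.maxHeartbeats 400000

open AlgebraicCurve IntermediateField Polynomial ModularCurve CongruenceSubgroup
  Fermat.Agent.S24Lib Fermat.Agent.FFLib Fermat.Agent.S18Lib Fermat.Agent.S28Lib
  Fermat.Agent.ESLib Fermat.Agent.S34Lib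

namespace Fermat.Agent.S35Lib

noncomputable section

theorem B1_frob_mem_gRing (q : ℕ) [hqF : Fact q.Prime] (A : ValuationSubring Qb)
    (hA : A.LiesOverPrime q) (σ : GQ) (hσ : A.IsFrobeniusAt σ q) (x : gRing A) :
    ∃ h : coeffMap (σ : Qb →+* Qb) (x : LaurentSeries Qb) ∈ gRing A,
      gRed A ⟨_, h⟩ = coeffMap ((frK q A hA : kk A ≃+* kk A) : kk A →+* kk A) (gRed A x) := by
  haveI : CharP (kk A) q := Fermat.Agent.S18Lib.charP_kk A hA
  have h1 := gNum_spec A x
  have hd := hσ.mem_decompositionSubgroup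
  have h2 : coeffMap (σ : Qb →+* Qb) (x : LaurentSeries Qb)
      * cE A (coeffMap (actA A σ hd) (gDen A x)) = cE A (coeffMap (actA A σ hd) (gNum A x)) := by
    rw [cE_def, cE_def, coeffMap_subtype_actA, coeffMap_subtype_actA, ← cE_def, ← cE_def, ← h1,
      map_mul]
  have hinj : Function.Injective (coeffMap (frobenius (kk A) q)) := by
    intro f g hfg
    ext n
    have := congrArg (fun z => HahnSeries.coeff z n) hfg
    simp only [coeffMap_coeff] at this
    exact frobenius_inj (kk A) q this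
  have h3 : cR A (coeffMap (actA A σ hd) (gDen A x)) ≠ 0 := by
    rw [cR_def, coeffMap_residue_actA_frob hσ, ← cR_def]
    intro h0
    apply gDen_ne A x
    apply hinj
    rw [h0, map_zero]
  have hmem : coeffMap (σ : Qb →+* Qb) (x : LaurentSeries Qb) ∈ gRing A :=
    ⟨coeffMap (actA A σ hd) (gNum A x), coeffMap (actA A σ hd) (gDen A x), h3, h2⟩
  refine ⟨hmem, ?_⟩
  have e1 := gRed_eq A ⟨_, hmem⟩ h3 h2
  have e2 := gRed_eq A x (gDen_ne A x) h1
  rw [e1, e2, map_div₀, cR_def, cR_def, coeffMap_residue_actA_frob hσ,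
    coeffMap_residue_actA_frob hσ, coe_frK]
  rfl

variable (M q : ℕ) [NeZero M] [NeZero q] [hqF : Fact q.Prime] (hqM : ¬ q ∣ M)
variable (A : ValuationSubring Qb) (hA : A.LiesOverPrime q)

variable {M q hqM A}
variable {R : RedG A (IsLocalRing.residue A) (FB (q * M)) (FT A M × FT A M)}

theorem frob_mem (hR : IsQRed2 M q hqM A R) (σ : GQ) (hσ : A.IsFrobeniusAt σ q) (x : R.O) :
    ∃ h : gal (q * M) σ (x : FB (q * M)) ∈ R.O,
      R.red ⟨_, h⟩ = (FrT M q A hA (R.red x).1, FrT M q A hA (R.red x).2) := by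
  have hx := (hR.mem_iff _).1 x.2
  obtain ⟨h1, hr1⟩ := B1_frob_mem_gRing q A hA σ hσ ⟨_, hx.1⟩
  obtain ⟨h2, hr2⟩ := B1_frob_mem_gRing q A hA σ hσ ⟨_, hx.2⟩
  have hc2 : ((wq M q hqM (gal (q * M) σ (x : FB (q * M))) : FB (q * M)) : LaurentSeries Qb)
      = coeffMap (σ : Qb →+* Qb)
        ((wq M q hqM (x : FB (q * M)) : FB (q * M)) : LaurentSeries Qb) := by
    rw [wq_gal]
    rfl
  have hmem : gal (q * M) σ (x : FB (q * M)) ∈ R.O := by
    rw [hR.mem_iff]
    exact ⟨h1, by rw [hc2]; exact h2⟩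
  refine ⟨hmem, ?_⟩
  apply Prod.ext
  · apply Subtype.ext
    rw [hR.red_fst ⟨_, hmem⟩ h1, coe_FrT, hR.red_fst x hx.1]
    exact hr1
  · apply Subtype.ext
    rw [hR.red_snd ⟨_, hmem⟩ (by rw [hc2]; exact h2), coe_FrT, hR.red_snd x hx.2, ← hr2]
    congr 1
    exact Subtype.ext hc2

end

end Fermat.Agent.S35Lib
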