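import Fermat.Agent.S35.Defs
import Fermat.Agent.S34.AbsGalois

/-!
# S35 library, (F0): the coefficientwise Frobenius of `FT A M`
-/

set_option autoImplicit false
set_option linter.style.haveILetI false
set_option synthInstance.maxHeartbeats 400000

open AlgebraicCurve IntermediateField Polynomial ModularCurve CongruenceSubgroup
  Fermat.Agent.S24Lib Fermat.Agent.FFLib Fermat.Agent.S18Lib Fermat.Agent.S28Lib
  Fermat.Agent.ESLib Fermat.Agent.S34Lib

namespace Fermat.Agent.S35Lib

noncomputable section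

variable (M q : ℕ) [NeZero M] [NeZero q] [hqF : Fact q.Prime] (hqM : ¬ q ∣ M)
variable (A : ValuationSubring Qb) (hA : A.LiesOverPrime q)

theorem FrT_jT : FrT M q A hA (jT A M) = jT A M := by
  apply Subtype.ext
  rw [coe_FrT]
  exact coeffMap_jqModC _

/-- `V_q (Fr y) = y ^ q` (`ESLib.pow_char_eq`) -/
theorem Vq_FrT (y : FT A M) : Vq M q A hA (FrT M q A hA y) = y ^ q := by
  haveI : CharP (kk A) q := Fermat.Agent.S18Lib.charP_kk A hA
  apply Subtype.ext
  show qExpand (kk A) q ((FrT M q A hA y : FT A M) : LaurentSeries (kk A)) =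
    (y : LaurentSeries (kk A)) ^ q
  rw [coe_FrT, coe_frK, pow_char_eq q]

/-- `Fr` preserves `L(n (j)_∞)` (`S34Lib.GA_smul_mem` with `g = FrS`, `E = E' = 0`) -/
theorem FrT_mem_L (n : ℕ) (y : FT A M)
    (hy : y ∈ riemannRochSpace (n • poleDiv (kk A) (jT A M))) :
    FrT M q A hA y ∈ riemannRochSpace (n • poleDiv (kk A) (jT A M)) := by
  haveI : IsAlgClosed (kk A) := isAlgClosed_kk A
  have h := GA_smul_mem (isFF_FT A M) (FrS M q A hA) (jT A M) (FrT_jT M q A hA) n 0 0
    (fun v => rfl) (y := y) (by rwa [add_zero])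
  rw [add_zero] at h
  exact h

end

end Fermat.Agent.S35Lib
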