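import Fermat.Agent.S35.Defs
import Fermat.Agent.S35.FrT
import Fermat.Agent.S34.RedG2Cor
import Fermat.Agent.S34.GoodM
import Fermat.Agent.S34.Pullback
import Fermat.Agent.S34.PolesJ
import Fermat.Agent.S34.VqBound
import Fermat.Agent.S34.Degrees
import Fermat.Agent.S34.EvP

/-!
# S35 library, (B2): the nodes are rational over the field with `q ^ 2` elements
-/

set_option autoImplicit false
set_option linter.style.haveILetI false
set_option synthInstance.maxHeartbeats 400000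

open AlgebraicCurve IntermediateField Polynomial ModularCurve CongruenceSubgroup
  Fermat.Agent.S24Lib Fermat.Agent.FFLib Fermat.Agent.S18Lib Fermat.Agent.S28Lib
  Fermat.Agent.ESLib Fermat.Agent.S34Lib

namespace Fermat.Agent.S35Lib

noncomputable section

variable (M q : ℕ) [NeZero M] [NeZero q] [hqF : Fact q.Prime] (hqM : ¬ q ∣ M)
variable (A : ValuationSubring Qb) (hA : A.LiesOverPrime q)

variable {M q hqM A}
variable {R : RedG A (IsLocalRing.residue A) (FB (q * M)) (FT A M × FT A M)}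

include hA in
theorem B2_red_x (hR : IsQRed2 M q hqM A R) (x : R.O)
    (hx : ((x : R.O) : FB (q * M)) = jN M q * jQ M q) :
    R.red x = (jT A M ^ (q + 1), jT A M ^ (q + 1)) := by
  obtain ⟨x', hx', hr⟩ := exists_xO hR hA
  have : x = x' := Subtype.ext (hx.trans hx'.symm)
  rw [this, hr]

theorem B2_ord_jT (P : Place (kk A) (FT A M)) (n : ℕ) (hn : n ≠ 0)
    (h : 0 ≤ P.ord (jT A M ^ n)) : 0 ≤ P.ord (jT A M) := by
  rw [wa_ord_pow] at h
  by_contra hneg
  rw [not_le] at hneg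
  have : (n : ℤ) * P.ord (jT A M) < 0 :=
    mul_neg_of_pos_of_neg (by exact_mod_cast Nat.pos_of_ne_zero hn) hneg
  omega

theorem node_swap (hbase : 2 ∣ M ∨ 3 ∣ M) (hR : IsQRed2 M q hqM A R)
    (x : R.O) (hx : ((x : R.O) : FB (q * M)) = jN M q * jQ M q)
    (S : Finset (Place (kk A) (FT A M) × Place (kk A) (FT A M))) (n₀ : ℕ)
    (hS : IsNodeData (R.red x).1 (R.red x).2 S)
    (hW : HW R IsLocalRing.residue_surjective x S n₀)
    (n : ℕ) (y : FT A M) (hy : y ∈ riemannRochSpace (n • poleDiv (kk A) (jT A M))) :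
    ∀ s ∈ S, evP s.1 (FrT M q A hA y) = evP s.2 y ^ q ∧
      evP s.2 (FrT M q A hA y) = evP s.1 y ^ q := by
  haveI : IsAlgClosed (kk A) := isAlgClosed_kk A
  have hFt := isFF_FT A M
  have hF := isFF_FB (q * M)
  have hrx := B2_red_x hA hR x hx
  obtain ⟨n₁, hn₁⟩ := exists_lift_L M q hqM hbase A hA
  set n' := max n (max n₀ n₁) with hn'
  have hnn' : n ≤ n' := le_max_left _ _
  have hn₀n' : n₀ ≤ n' := (le_max_left _ _).trans (le_max_right _ _)
  have hn₁n' : n₁ ≤ n' := (le_max_right _ _).trans (le_max_right _ _)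
  have hy' : y ∈ riemannRochSpace (n' • poleDiv (kk A) (jT A M)) :=
    L_mono (nsmul_le_nsmul_left (dg_poleDiv_nonneg hFt _) hnn') hy
  obtain ⟨z, hzL, hzr⟩ := hn₁ n' hn₁n' _ (FrT_mem_L M q A hA n' y hy')
  have hpole := poleDiv_mul M q hqM
  -- the first lift
  have h1L : pi1 M q (z : FB M) ∈ riemannRochSpace (n' • poleDiv Qb ((x : R.O) : FB (q * M))) := by
    rw [hx, hpole]
    refine L_mono ?_ (pi1_mem_L M q n' z hzL)
    rw [nsmul_add]
    exact le_add_of_nonneg_right (nsmul_nonneg (dg_poleDiv_nonneg hF _) n')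
  obtain ⟨h1O, h1r⟩ := pi1_mem (hA := hA) hR z
  have g1 := ((hW n' hn₀n' _).1 (red_mem_redSp IsLocalRing.residue_surjective
    (x := ⟨_, h1O⟩) h1L)).2
  -- the second lift
  have h2L : pi2 M q hqM (z : FB M) ∈
      riemannRochSpace (n' • poleDiv Qb ((x : R.O) : FB (q * M))) := by
    rw [hx, hpole]
    refine L_mono ?_ (wq_mem_L M q hqM n' _ (pi1_mem_L M q n' z hzL))
    rw [nsmul_add]
    exact le_add_of_nonneg_left (nsmul_nonneg (dg_poleDiv_nonneg hF _) n')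
  obtain ⟨h2O, h2r⟩ := pi2_mem (hA := hA) hR z
  have g2 := ((hW n' hn₀n' _).1 (red_mem_redSp IsLocalRing.residue_surjective
    (x := ⟨_, h2O⟩) h2L)).2
  rw [h1r, hzr, Vq_FrT] at g1
  rw [h2r, hzr, Vq_FrT] at g2
  intro s hs
  have hs1 : 0 ≤ s.1.ord (jT A M) := by
    have := hS.fin₁ s hs
    rw [hrx] at this
    exact B2_ord_jT s.1 (q + 1) (Nat.succ_ne_zero q) this
  have hs2 : 0 ≤ s.2.ord (jT A M) := by
    have := hS.fin₂ s hs
    rw [hrx] at this
    exact B2_ord_jT s.2 (q + 1) (Nat.succ_ne_zero q) this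
  have e1 := g1 s hs
  have e2 := g2 s hs
  simp only [one_mul] at e1 e2
  rw [evP_pow hFt s.2 (ge_zero_of_mem_L hFt hy s.2 hs2)] at e1
  rw [evP_pow hFt s.1 (ge_zero_of_mem_L hFt hy s.1 hs1)] at e2
  exact ⟨e1, e2.symm⟩

theorem node_frob (hbase : 2 ∣ M ∨ 3 ∣ M) (hR : IsQRed2 M q hqM A R)
    (x : R.O) (hx : ((x : R.O) : FB (q * M)) = jN M q * jQ M q)
    (S : Finset (Place (kk A) (FT A M) × Place (kk A) (FT A M))) (n₀ : ℕ)
    (hS : IsNodeData (R.red x).1 (R.red x).2 S)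
    (hW : HW R IsLocalRing.residue_surjective x S n₀) :
    ∀ s ∈ S, ∀ (n : ℕ) (φ : FT A M × FT A M), φ ∈ Lt (kk A) (R.red x).1 (R.red x).2 n →
      evP s.1 (FrT M q A hA (FrT M q A hA φ.1)) = evP s.1 φ.1 ^ (q ^ 2) ∧
      evP s.2 (FrT M q A hA (FrT M q A hA φ.2)) = evP s.2 φ.2 ^ (q ^ 2) := by
  intro s hs n φ hφ
  have hrx := B2_red_x hA hR x hx
  rw [hrx] at hφ
  have hφ1 : φ.1 ∈ riemannRochSpace ((n * (q + 1)) • poleDiv (kk A) (jT A M)) := by
    have := hφ.1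
    simp only at this
    rwa [poleDiv_jT_pow, ← mul_nsmul, mul_comm] at this
  have hφ2 : φ.2 ∈ riemannRochSpace ((n * (q + 1)) • poleDiv (kk A) (jT A M)) := by
    have := hφ.2
    simp only at this
    rwa [poleDiv_jT_pow, ← mul_nsmul, mul_comm] at this
  have a1 := node_swap (hA := hA) hbase hR x hx S n₀ hS hW _ φ.1 hφ1 s hs
  have a2 := node_swap (hA := hA) hbase hR x hx S n₀ hS hW _ φ.2 hφ2 s hs
  have b1 := node_swap (hA := hA) hbase hR x hx S n₀ hS hW _ _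
    (FrT_mem_L M q A hA _ φ.1 hφ1) s hs
  have b2 := node_swap (hA := hA) hbase hR x hx S n₀ hS hW _ _
    (FrT_mem_L M q A hA _ φ.2 hφ2) s hs
  refine ⟨?_, ?_⟩
  · rw [b1.1, a1.2, ← pow_mul, sq]
  · rw [b2.2, a2.1, ← pow_mul, sq]

end

end Fermat.Agent.S35Lib
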