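import Fermat.Agent.S35.Defs
import Fermat.Agent.S34.RedG2Cor
import Fermat.Agent.ES.Integral
import Fermat.Agent.ES.Formal

/-!
# S35 library, (B3): `normL q` on the Gauss ring
-/

set_option autoImplicit false
set_option linter.style.haveILetI false
set_option synthInstance.maxHeartbeats 400000

open AlgebraicCurve IntermediateField Polynomial ModularCurve CongruenceSubgroup
  Fermat.Agent.S24Lib Fermat.Agent.FFLib Fermat.Agent.S18Lib Fermat.Agent.S28Lib
  Fermat.Agent.ESLib Fermat.Agent.S34Lib

namespace Fermat.Agent.S35Lib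

noncomputable section

variable (M q : ℕ) [NeZero M] [NeZero q] [hqF : Fact q.Prime] (hqM : ¬ q ∣ M)
variable (A : ValuationSubring Qb) (hA : A.LiesOverPrime q)

omit [NeZero M] in
theorem normL_mem_gRing (x : gRing A) :
    ∃ h : normL q (x : LaurentSeries Qb) ∈ gRing A,
      gRed A ⟨_, h⟩ = coeffMap ((frK q A hA : kk A ≃+* kk A) : kk A →+* kk A) (gRed A x) := by
  haveI : CharP (kk A) q := Fermat.Agent.S18Lib.charP_kk A hA
  have h1 := gNum_spec A x
  obtain ⟨S, hS1, hS2⟩ := exists_normL_int (A := A) q (gDen A x)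
  obtain ⟨a, ha1, ha2⟩ := exists_normL_int (A := A) q (gNum A x)
  have h2 : normL q (x : LaurentSeries Qb) * cE A S = cE A a := by
    rw [cE_def, cE_def, hS1, ha1, ← cE_def, ← cE_def, ← h1,
      normL_mul q (exists_primitiveRoot_Qb q)]
  have hinj : Function.Injective (coeffMap (frobenius (kk A) q)) := by
    intro f g hfg
    ext n
    have := congrArg (fun z => HahnSeries.coeff z n) hfg
    simp only [coeffMap_coeff] at this
    exact frobenius_inj (kk A) q this
  have h3 : cR A S ≠ 0 := by
    rw [cR_def, hS2, ← cR_def]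
    intro h0
    apply gDen_ne A x
    apply hinj
    rw [h0, map_zero]
  have hmem : normL q (x : LaurentSeries Qb) ∈ gRing A := ⟨a, S, h3, h2⟩
  refine ⟨hmem, ?_⟩
  have e1 := gRed_eq A ⟨_, hmem⟩ h3 h2
  have e2 := gRed_eq A x (gDen_ne A x) h1
  rw [e1, e2, map_div₀, cR_def, cR_def, hS2, ha2, coe_frK]
  rfl

end

end Fermat.Agent.S35Lib
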