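import Fermat.Agent.S35.Defs
import Fermat.Agent.S35.NormLRed
import Fermat.Agent.S35.NormFormula
import Fermat.Agent.S35.NormKum
import Fermat.Agent.S34.RedG2Cor

/-! # S35 (NMR) (HN): reduction of the norm -/

set_option autoImplicit false
set_option synthInstance.maxHeartbeats 400000

open AlgebraicCurve IntermediateField Polynomial ModularCurve CongruenceSubgroup
  Fermat.Agent.S24Lib Fermat.Agent.FFLib Fermat.Agent.S18Lib Fermat.Agent.S28Lib
  Fermat.Agent.ESLib Fermat.Agent.S34Lib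

namespace Fermat.Agent.S35Lib

noncomputable section

variable (M q : ℕ) [NeZero M] [NeZero q] [hqF : Fact q.Prime] (hqM : ¬ q ∣ M)
variable (A : ValuationSubring Qb) (hA : A.LiesOverPrime q)
variable {M q hqM A}
variable {R : RedG A (IsLocalRing.residue A) (FB (q * M)) (FT A M × FT A M)}

theorem nm_red (hR : IsQRed2 M q hqM A R) (h : R.O) :
    ∃ hn : nm M q (h : FB (q * M)) ∈ OC M hqM A hA,
      redC M hqM A hA ⟨_, hn⟩ = (R.red h).1 * FrT M q A hA (R.red h).2 := by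
  obtain ⟨h1, h2⟩ := (hR.mem_iff (h : FB (q * M))).1 h.2
  obtain ⟨h3, h4⟩ := normL_mem_gRing q A hA ⟨_, h2⟩
  have hcoe := coe_nm M q hqM (h : FB (q * M))
  have hn : nm M q (h : FB (q * M)) ∈ OC M hqM A hA := by
    rw [mem_OC_iff, hcoe]
    exact (gRing A).mul_mem h1 h3
  refine ⟨hn, ?_⟩
  apply Subtype.ext
  rw [coe_redC]
  have e1 : OCtoG M hqM A hA ⟨_, hn⟩ =
      (⟨_, h1⟩ : gRing A) * ⟨_, h3⟩ := Subtype.ext hcoe
  rw [e1, map_mul, h4, ← hR.red_fst h h1, ← hR.red_snd h h2]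
  rfl

theorem HN_aux (hR : IsQRed2 M q hqM A R) (m : ℕ) (hm : 0 < m) (f : FB (q * M)) (z : FB M)
    (h₁ : nm M q f = z ^ m)
    (c : Qb) (G : FB (q * M)) (h : R.O) (hc : c ≠ 0) (hG : G ≠ 0)
    (hf : f = algebraMap Qb (FB (q * M)) c * G ^ m * ((h : R.O) : FB (q * M))) :
    ∃ e : FT A M, (R.red h).1 * FrT M q A hA (R.red h).2 = e ^ m := by
  obtain ⟨hn, hred⟩ := nm_red (hA := hA) hR h
  -- the norm of a constant
  obtain ⟨d, hd⟩ : ∃ d : ℕ, nm M q (algebraMap Qb (FB (q * M)) c) =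
      algebraMap Qb (FB M) c ^ d := by
    let _ := algebraAlong (pi1 M q)
    refine ⟨Module.finrank (FB M) (FB (q * M)), ?_⟩
    have e1 : algebraMap Qb (FB (q * M)) c =
        algebraMap (FB M) (FB (q * M)) (algebraMap Qb (FB M) c) :=
      ((pi1 M q).commutes c).symm
    rw [e1]
    exact Algebra.norm_algebraMap _
  obtain ⟨c₁, hc₁⟩ := IsAlgClosed.exists_pow_nat_eq (c ^ d) hm
  have hc₁0 : c₁ ≠ 0 := by
    rintro rfl
    rw [zero_pow hm.ne'] at hc₁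
    exact pow_ne_zero d hc hc₁.symm
  have hnG : nm M q G ≠ 0 :=
    (isKum_nm M q hqM 1 G ⟨hG, fun P => by simp⟩).1
  set e : FB M := z * (algebraMap Qb (FB M) c₁ * nm M q G)⁻¹ with he
  have hc₁F : algebraMap Qb (FB M) c₁ ≠ 0 := by simpa using hc₁0
  have hem : e ^ m = nm M q (h : FB (q * M)) := by
    have e2 : z ^ m = (algebraMap Qb (FB M) c₁ * nm M q G) ^ m * nm M q (h : FB (q * M)) := by
      rw [← h₁, hf, map_mul, map_mul, map_pow, hd, mul_pow, ← map_pow (algebraMap Qb (FB M)),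
        ← map_pow (algebraMap Qb (FB M)), hc₁]
    rw [he, mul_pow, e2, inv_pow]
    have : (algebraMap Qb (FB M) c₁ * nm M q G) ^ m ≠ 0 :=
      pow_ne_zero _ (mul_ne_zero hc₁F hnG)
    field_simp
  have heO : e ∈ OC M hqM A hA := by
    rcases (OC M hqM A hA).mem_or_inv_mem e with h0 | h0
    · exact h0
    · by_cases he0 : e = 0
      · rw [he0]; exact (OC M hqM A hA).zero_mem
      obtain ⟨m', rfl⟩ : ∃ m', m = m' + 1 := ⟨m - 1, by omega⟩
      have : e = e ^ (m' + 1) * e⁻¹ ^ m' := by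
        rw [inv_pow, pow_succ]
        field_simp
      rw [this, hem]
      exact (OC M hqM A hA).mul_mem _ _ hn (pow_mem h0 _)
  refine ⟨redC M hqM A hA ⟨e, heO⟩, ?_⟩
  rw [← hred, ← map_pow]
  congr 1
  exact Subtype.ext hem.symm

/-- the hypothesis `hN` of helper7's `frob_abstract` -/
theorem hN_mod (hR : IsQRed2 M q hqM A R) (m : ℕ) (hm : 0 < m) (f : FB (q * M)) (z₁ z₂ : FB M)
    (h₁ : nm M q f = z₁ ^ m) (h₂ : nm M q (wq M q hqM f) = z₂ ^ m)
    (c : Qb) (G : FB (q * M)) (h : R.O) (hc : c ≠ 0) (hG : G ≠ 0) (_hu : IsUnit (R.red h))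
    (hf : f = algebraMap Qb (FB (q * M)) c * G ^ m * ((h : R.O) : FB (q * M))) :
    ∃ e₁ e₂ : FT A M, (R.red h).1 * FrT M q A hA (R.red h).2 = e₁ ^ m ∧
      (R.red h).2 * FrT M q A hA (R.red h).1 = e₂ ^ m := by
  obtain ⟨e₁, he₁⟩ := HN_aux (hA := hA) hR m hm f z₁ h₁ c G h hc hG hf
  obtain ⟨hw, hwred⟩ := wq_mem hR h
  obtain ⟨e₂, he₂⟩ := HN_aux (hA := hA) hR m hm (wq M q hqM f) z₂ h₂ c (wq M q hqM G) ⟨_, hw⟩ hc
    ((map_ne_zero_iff _ (wq M q hqM).injective).2 hG)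
    (by rw [hf, map_mul, map_mul, map_pow, AlgEquiv.commutes])
  rw [hwred] at he₂
  exact ⟨e₁, e₂, he₁, he₂⟩

end

end Fermat.Agent.S35Lib
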