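import Fermat.Agent.S35.Defs
import Fermat.Agent.S35.FrobAbstract
import Fermat.Agent.S35.FrobMem
import Fermat.Agent.S35.Nodes
import Fermat.Agent.S35.NormRed
import Fermat.Agent.S34.UnipKummer

/-! # S35 (FKB): `(σ² - q²)(σ² - 1)` kills the Kummer generators with trivial norms, base level -/

set_option autoImplicit false
set_option synthInstance.maxHeartbeats 400000

open AlgebraicCurve IntermediateField Polynomial ModularCurve CongruenceSubgroup
  Fermat.Agent.S24Lib Fermat.Agent.FFLib Fermat.Agent.S18Lib Fermat.Agent.S28Lib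
  Fermat.Agent.ESLib Fermat.Agent.S34Lib

namespace Fermat.Agent.S35Lib

noncomputable section

variable (M q : ℕ) [NeZero M] [NeZero q] [hqF : Fact q.Prime] (hqM : ¬ q ∣ M)

theorem frob_kummer_base (hbase : 2 ∣ M ∨ 3 ∣ M) (A : ValuationSubring Qb)
    (hA : A.LiesOverPrime q) (σ : GQ) (hσ : A.IsFrobeniusAt σ q) (m : ℕ) (hm : ¬ q ∣ m)
    (f : FB (q * M)) (hf : IsKum (q * M) m f) (z₁ z₂ : FB M)
    (h₁ : nm M q f = z₁ ^ m) (h₂ : nm M q (wq M q hqM f) = z₂ ^ m) :
    ∃ w : FB (q * M),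
      gal (q * M) σ (gal (q * M) σ (gal (q * M) σ (gal (q * M) σ f))) * f ^ (q ^ 2)
        = w ^ m * (gal (q * M) σ (gal (q * M) σ f)) ^ (q ^ 2 + 1) := by
  have := isAlgClosed_kk A
  have : CharP (kk A) q := Fermat.Agent.ESLib.charP_kk hqF.out hA
  obtain ⟨R, hR⟩ := exists_red2 M q hqM A hA
  obtain ⟨x, hx, hxr⟩ := exists_xO hR hA
  obtain ⟨hx₁, hx₂, S, n₀, hS, hW⟩ := UK_exists_nodes M q hqM hbase A hA R hR x hx hxr
  have hmk : (m : kk A) ≠ 0 := by
    rw [Ne, CharP.cast_eq_zero_iff (kk A) q]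
    exact hm
  have hm0 : 0 < m := Nat.pos_of_ne_zero (by rintro rfl; exact hm (dvd_zero q))
  exact frob_abstract (isFF_FB (q * M)) (isFF_FT A M) IsLocalRing.residue_surjective R x
    hx₁ hx₂ S n₀ hS hW m hmk (q ^ 2)
    (arithmeticGalois (modularFunctionFieldFull (q * M)) σ)
    ((FrT M q A hA : FT A M ≃+* FT A M) : FT A M →+* FT A M)
    (fun y => frob_mem (hA := hA) hR σ hσ y)
    (by
      rw [hx]
      show gal (q * M) σ (jN M q * jQ M q) = _
      rw [map_mul]
      congr 1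
      · exact UK_gal_jBarD (q * M) 1 (one_dvd _) σ
      · exact UK_gal_jBarD (q * M) q (dvd_mul_right q M) σ)
    (fun s hs n p hp => node_frob (hA := hA) hbase hR x hx S n₀ hS hW s hs n p hp)
    f hf.1 hf.2
    (fun c G h hc hG hu hfe => hN_mod (hA := hA) hR m hm0 f z₁ z₂ h₁ h₂ c G h hc hG hu hfe)

end

end Fermat.Agent.S35Lib
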