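import Fermat.Agent.S35.Defs
import Fermat.Agent.S35.NormFormula
import Fermat.Agent.S35.FrobKummerBase
import Fermat.Agent.S34.LevelDescent

set_option autoImplicit false
set_option synthInstance.maxHeartbeats 400000

open AlgebraicCurve IntermediateField Polynomial ModularCurve CongruenceSubgroup
  Fermat.Agent.S24Lib Fermat.Agent.FFLib Fermat.Agent.S18Lib Fermat.Agent.S28Lib
  Fermat.Agent.ESLib Fermat.Agent.S34Lib

namespace Fermat.Agent.S35Lib

noncomputable section

variable (M q : ℕ) [NeZero M] [NeZero q] [hqF : Fact q.Prime] (hqM : ¬ q ∣ M)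

/-! # S35 (LV35): descent from the auxiliary level -/

/-- `w_q` at level `q (r M)` restricts to `w_q` at level `q M` -/
theorem wq_compat (r : ℕ) [NeZero r] (hqrM : ¬ q ∣ r * M) (f : FB (q * M))
    (hf' : (f : LaurentSeries Qb) ∈ FB (q * (r * M))) :
    ((wq (r * M) q hqrM ⟨(f : LaurentSeries Qb), hf'⟩ : FB (q * (r * M))) : LaurentSeries Qb)
      = ((wq M q hqM f : FB (q * M)) : LaurentSeries Qb) := by
  have hq : q.Prime := hqF.out
  have hdvd : q * M ∣ q * (r * M) := Nat.mul_dvd_mul_left q (dvd_mul_left M r)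
  have hle : FB (q * M) ≤ FB (q * (r * M)) := FB_le_of_dvd hdvd
  set g₁ : FB (q * M) →+* LaurentSeries Qb :=
    ((FB (q * M)).val : FB (q * M) →+* LaurentSeries Qb).comp
      ((wq M q hqM : FB (q * M) ≃ₐ[Qb] FB (q * M)) : FB (q * M) →+* FB (q * M)) with hg₁
  set g₂ : FB (q * M) →+* LaurentSeries Qb :=
    (((FB (q * (r * M))).val : FB (q * (r * M)) →+* LaurentSeries Qb).comp
      ((wq (r * M) q hqrM : FB (q * (r * M)) ≃ₐ[Qb] FB (q * (r * M))) :
        FB (q * (r * M)) →+* FB (q * (r * M)))).comp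
      ((IntermediateField.inclusion hle : FB (q * M) →ₐ[Qb] FB (q * (r * M))) :
        FB (q * M) →+* FB (q * (r * M))) with hg₂
  have key : g₂ = g₁ := by
    apply Wq_ringHom_ext
    · intro c
      show (((wq (r * M) q hqrM) ((IntermediateField.inclusion hle)
        (algebraMap Qb (FB (q * M)) c)) : FB (q * (r * M))) : LaurentSeries Qb)
        = (((wq M q hqM) (algebraMap Qb (FB (q * M)) c) : FB (q * M)) : LaurentSeries Qb)
      rw [AlgHom.commutes, AlgEquiv.commutes, AlgEquiv.commutes]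
      rfl
    · intro d hd
      show (((wq (r * M) q hqrM) ⟨Wq_J d, hle (Wq_J_mem hd)⟩ : FB (q * (r * M))) :
          LaurentSeries Qb)
        = (((wq M q hqM) ⟨Wq_J d, Wq_J_mem hd⟩ : FB (q * M)) : LaurentSeries Qb)
      by_cases hqd : q ∣ d
      · obtain ⟨e, rfl⟩ := hqd
        have he : e ∣ M := Nat.dvd_of_mul_dvd_mul_left hq.pos hd
        have he' : e ∣ r * M := he.mul_left r
        have e1 : (⟨Wq_J (q * e), Wq_J_mem hd⟩ : FB (q * M))
            = wq M q hqM ⟨Wq_J e, Wq_J_mem (he.mul_left q)⟩ := by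
          apply Subtype.ext
          rw [coe_wq M q hqM _ (Wq_J_mem he), Wq_qExpand_J]
        have e2 : (⟨Wq_J (q * e), hle (Wq_J_mem hd)⟩ : FB (q * (r * M)))
            = wq (r * M) q hqrM ⟨Wq_J e, Wq_J_mem (he'.mul_left q)⟩ := by
          apply Subtype.ext
          rw [coe_wq (r * M) q hqrM _ (Wq_J_mem he'), Wq_qExpand_J]
        rw [e1, e2, wq_wq, wq_wq]
      · have hdM : d ∣ M :=
          (Nat.Coprime.dvd_of_dvd_mul_left
            (((Nat.Prime.coprime_iff_not_dvd hq).mpr hqd).symm) hd)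
        rw [coe_wq M q hqM _ (Wq_J_mem hdM), coe_wq (r * M) q hqrM _ (Wq_J_mem (hdM.mul_left r))]
  have := congrArg (fun g : FB (q * M) →+* LaurentSeries Qb => g f) key
  exact this

include hqM in
/-- the norms at the two levels agree -/
theorem LV35_nm (r : ℕ) [NeZero r] (hqrM : ¬ q ∣ r * M) (g : FB (q * M))
    (hg' : (g : LaurentSeries Qb) ∈ FB (q * (r * M))) :
    ((nm (r * M) q ⟨(g : LaurentSeries Qb), hg'⟩ : FB (r * M)) : LaurentSeries Qb)
      = ((nm M q g : FB M) : LaurentSeries Qb) := by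
  rw [coe_nm (r * M) q hqrM, coe_nm M q hqM, wq_compat M q hqM r hqrM g hg']

theorem frob_kummer {p : ℕ} (hp : p.Prime) (hpq : p ≠ q) (A : ValuationSubring Qb)
    (hA : A.LiesOverPrime q) (σ : GQ) (hσ : A.IsFrobeniusAt σ q) (n : ℕ)
    (f : FB (q * M)) (hf : IsKum (q * M) (p ^ n) f) (z₁ z₂ : FB M)
    (h₁ : nm M q f = z₁ ^ (p ^ n)) (h₂ : nm M q (wq M q hqM f) = z₂ ^ (p ^ n)) :
    ∃ w : FB (q * M),
      gal (q * M) σ (gal (q * M) σ (gal (q * M) σ (gal (q * M) σ f))) * f ^ (q ^ 2)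
        = w ^ (p ^ n) * (gal (q * M) σ (gal (q * M) σ f)) ^ (q ^ 2 + 1) := by
  have hq : q.Prime := hqF.out
  have hM₀ : M ≠ 0 := NeZero.ne M
  have hm : ¬ q ∣ p ^ n := by
    intro hd
    exact hpq ((Nat.prime_dvd_prime_iff_eq hq hp).mp (hq.dvd_of_dvd_pow hd)).symm
  obtain ⟨p0, hp0, hp0q, hpp0, hp23⟩ := LV_exists_prime hq hp hpq
  by_cases hpM : p0 ∣ M
  · have hbase : 2 ∣ M ∨ 3 ∣ M := by
      rcases hp23 with rfl | rfl
      · exact Or.inl hpM
      · exact Or.inr hpM
    exact frob_kummer_base M q hqM hbase A hA σ hσ (p ^ n) hm f hf z₁ z₂ h₁ h₂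
  · -- auxiliary level
    have : NeZero p0 := ⟨hp0.ne_zero⟩
    have hqM1 : ¬ q ∣ p0 * M := by
      intro h
      rcases (Nat.Prime.dvd_mul hq).mp h with h | h
      · exact hp0q ((Nat.prime_dvd_prime_iff_eq hq hp0).mp h).symm
      · exact hqM h
    have hbase : 2 ∣ p0 * M ∨ 3 ∣ p0 * M := by
      rcases hp23 with rfl | rfl
      · exact Or.inl (dvd_mul_right _ _)
      · exact Or.inr (dvd_mul_right _ _)
    have hdvd : q * M ∣ q * (p0 * M) := Nat.mul_dvd_mul_left q (dvd_mul_left M p0)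
    have hle : FB (q * M) ≤ FB (q * (p0 * M)) := FB_le_of_dvd hdvd
    have hleM : FB M ≤ FB (p0 * M) := FB_le_of_dvd (dvd_mul_left M p0)
    have hp0N : ¬ p0 ∣ q * M := by
      intro h
      rcases (Nat.Prime.dvd_mul hp0).mp h with h | h
      · exact hp0q ((Nat.prime_dvd_prime_iff_eq hp0 hq).mp h)
      · exact hpM h
    have hidx : (Gamma0 (q * (p0 * M))).index = (Gamma0 (q * M)).index * (p0 + 1) := by
      have e : q * (p0 * M) = p0 * (q * M) := by ring
      rw [e, Fermat.Agent.S20Lib.index_Gamma0 (p0 * (q * M)),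
        Fermat.Agent.S20Lib.dedekindPsi_mul_of_not_dvd (NeZero.ne (q * M)) hp0 hp0N,
        ← Fermat.Agent.S20Lib.index_Gamma0 (q * M), mul_comm]
    have hD := D2_finish hle (p0 + 1) p (Nat.succ_pos _) hidx hpp0
    let _ := (IntermediateField.inclusion hle).toRingHom.toAlgebra
    have : IsScalarTower Qb (FB (q * M)) (FB (q * (p0 * M))) :=
      IsScalarTower.of_algebraMap_eq fun a => ((IntermediateField.inclusion hle).commutes a).symm
    have : FiniteDimensional (FB (q * M)) (FB (q * (p0 * M))) := hD.1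
    have hι : ∀ x : FB (q * M), algebraMap (FB (q * M)) (FB (q * (p0 * M))) x
        = IntermediateField.inclusion hle x := fun _ => rfl
    have hf' : IsKum (q * (p0 * M)) (p ^ n) (IntermediateField.inclusion hle f) := by
      refine ⟨(map_ne_zero_iff _ (IntermediateField.inclusion hle).toRingHom.injective).2 hf.1,
        fun P' => ?_⟩
      rw [← hι]
      exact LV_dvd_ord (K := Qb) ((p ^ n : ℕ) : ℤ) f hf.2 P'
    have hinc : ∀ g : FB (q * M), IntermediateField.inclusion hle g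
        = ⟨(g : LaurentSeries Qb), hle g.2⟩ := fun g =>
      Subtype.ext (IntermediateField.coe_inclusion hle g)
    have h₁' : nm (p0 * M) q (IntermediateField.inclusion hle f)
        = (IntermediateField.inclusion hleM z₁) ^ (p ^ n) := by
      apply Subtype.ext
      rw [hinc, LV35_nm M q hqM p0 hqM1 f (hle f.2), h₁, IntermediateField.coe_pow,
        IntermediateField.coe_pow, IntermediateField.coe_inclusion]
    have hw : wq (p0 * M) q hqM1 (IntermediateField.inclusion hle f)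
        = IntermediateField.inclusion hle (wq M q hqM f) := by
      apply Subtype.ext
      rw [hinc f, wq_compat M q hqM p0 hqM1 f (hle f.2), hinc]
    have h₂' : nm (p0 * M) q (wq (p0 * M) q hqM1 (IntermediateField.inclusion hle f))
        = (IntermediateField.inclusion hleM z₂) ^ (p ^ n) := by
      apply Subtype.ext
      rw [hw, hinc, LV35_nm M q hqM p0 hqM1 (wq M q hqM f) (hle (wq M q hqM f).2), h₂,
        IntermediateField.coe_pow, IntermediateField.coe_pow, IntermediateField.coe_inclusion]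
    obtain ⟨w', hw'⟩ := frob_kummer_base (p0 * M) q hqM1 hbase A hA σ hσ (p ^ n) hm _ hf' _ _
      h₁' h₂'
    have hf0 := hf.1
    have hgne : ∀ (ρ : GQ) (x : FB (q * M)), x ≠ 0 → gal (q * M) ρ x ≠ 0 := fun ρ x hx =>
      (map_ne_zero_iff _ (gal (q * M) ρ).injective).2 hx
    have hX : gal (q * M) σ (gal (q * M) σ (gal (q * M) σ (gal (q * M) σ f))) * f ^ (q ^ 2) ≠ 0 :=
      mul_ne_zero (hgne _ _ (hgne _ _ (hgne _ _ (hgne _ _ hf0)))) (pow_ne_zero _ hf0)
    have hY : (gal (q * M) σ (gal (q * M) σ f)) ^ (q ^ 2 + 1) ≠ 0 :=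
      pow_ne_zero _ (hgne _ _ (hgne _ _ hf0))
    refine LV_norm_descent (F₂ := FB (q * (p0 * M))) hX hY
      (Nat.Coprime.pow_right n ((Nat.Prime.coprime_iff_not_dvd hp).2 hD.2).symm) w' ?_
    simp only [hι, map_mul, map_pow, LV_gal_inclusion]
    exact hw'

end

end Fermat.Agent.S35Lib
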