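import Fermat.Agent.S35.NormFormula
import Fermat.Agent.S36.ALHecke
import Fermat.Agent.S36.NrmFormal

/-!
# S35 library, (NH): `w_q` is an Atkin-Lehner involution, and the two norms `nm`, `nm ∘ w_q`
commute with the multiplicative Hecke operators
-/

set_option autoImplicit false
set_option linter.style.haveILetI false
set_option synthInstance.maxHeartbeats 400000

open AlgebraicCurve IntermediateField Polynomial ModularCurve CongruenceSubgroup
  Fermat.Agent.S24Lib Fermat.Agent.FFLib Fermat.Agent.S18Lib Fermat.Agent.S28Lib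
  Fermat.Agent.ESLib Fermat.Agent.S34Lib

namespace Fermat.Agent.S35Lib

noncomputable section

variable (M q : ℕ) [NeZero M] [NeZero q] [hqF : Fact q.Prime] (hqM : ¬ q ∣ M)

theorem isAL_wq : S36Lib.IsAL (q * M) q M (wq M q hqM) := by
  refine ⟨?_, wq_wq M q hqM, wq_gal M q hqM⟩
  intro d e hd he h
  rcases (Nat.dvd_prime hqF.out).1 hd with rfl | rfl
  · rw [coe_wq M q hqM _ (by rw [one_mul]; exact Wq_J_mem he), Wq_qExpand_J, Nat.div_one, one_mul]
  · have h1 : (⟨Wq_J (d * e), h⟩ : FB (d * M)) =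
        wq M d hqM ⟨Wq_J e, Wq_J_mem (Dvd.dvd.mul_left he d)⟩ := by
      apply Subtype.ext
      rw [coe_wq M d hqM _ (Wq_J_mem he), Wq_qExpand_J]
    rw [h1, wq_wq, Nat.div_self (Nat.pos_of_ne_zero (NeZero.ne d)), one_mul]

theorem wq_heckeMul {ℓ : ℕ} [NeZero ℓ] (hℓ : ℓ.Prime) (hℓN : ¬ ℓ ∣ q * M) (f f' : FB (q * M))
    (hf : (f' : LaurentSeries Qb) = heckeMul ℓ (f : LaurentSeries Qb)) :
    ((wq M q hqM f' : FB (q * M)) : LaurentSeries Qb)
      = heckeMul ℓ ((wq M q hqM f : FB (q * M)) : LaurentSeries Qb) :=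
  S36Lib.IsAL.comm_heckeMul rfl ((Nat.Prime.coprime_iff_not_dvd hqF.out).2 hqM) hℓ hℓN
    (isAL_wq M q hqM) f f' hf

include hqM in
theorem nm_heckeMul {ℓ : ℕ} [NeZero ℓ] (hℓ : ℓ.Prime) (hℓN : ¬ ℓ ∣ q * M) (f f' : FB (q * M))
    (hf : (f' : LaurentSeries Qb) = heckeMul ℓ (f : LaurentSeries Qb)) :
    ((nm M q f' : FB M) : LaurentSeries Qb)
      = heckeMul ℓ ((nm M q f : FB M) : LaurentSeries Qb) := by
  have hne : q ≠ ℓ := by
    rintro rfl
    exact hℓN (dvd_mul_right q M)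
  have hc : Nat.Coprime q ℓ := (Nat.coprime_primes hqF.out hℓ).2 hne
  rw [coe_nm M q hqM, coe_nm M q hqM, heckeMul_mul ℓ (exists_primitiveRoot_Qb ℓ), ← hf,
    wq_heckeMul M q hqM hℓ hℓN f f' hf,
    S36Lib.normL_heckeMul q ℓ hc (exists_primitiveRoot_Qb q) (exists_primitiveRoot_Qb ℓ)]

theorem nm_wq_heckeMul {ℓ : ℕ} [NeZero ℓ] (hℓ : ℓ.Prime) (hℓN : ¬ ℓ ∣ q * M) (f f' : FB (q * M))
    (hf : (f' : LaurentSeries Qb) = heckeMul ℓ (f : LaurentSeries Qb)) :
    ((nm M q (wq M q hqM f') : FB M) : LaurentSeries Qb)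
      = heckeMul ℓ ((nm M q (wq M q hqM f) : FB M) : LaurentSeries Qb) :=
  nm_heckeMul M q hqM hℓ hℓN _ _ (wq_heckeMul M q hqM hℓ hℓN f f' hf)

end

end Fermat.Agent.S35Lib
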