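import Fermat.Agent.S35.Wiring
import Fermat.Agent.S35.LevelDescent
import Fermat.Agent.S35.NormHecke
import Fermat.Agent.S35.NormKum
import Fermat.Agent.S36.TrunkClause
import Fermat.Agent.ES.TrunkX

/-!
# S35 library, (FM): the clause (FM) of the trunk

`(g² - q²)(g² - 1) Θ(t₀) = 0`, `g = ρ_n(σ)`, `σ` a Frobenius lift at `q ‖ N`, `t₀` a Hecke operator
killing the level `N / q`: from the Kummer statement `frob_kummer` and the generic trunk clause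
`kap_nu_eq_pow` applied to the two norms `nm`, `nm ∘ w_q`.
-/

set_option autoImplicit false
set_option synthInstance.maxHeartbeats 400000
set_option linter.style.haveILetI false

open AlgebraicCurve ModularCurve

namespace Fermat.Agent.S35Lib

open Fermat.Agent.S18Lib Fermat.Agent.S24Lib Fermat.Agent.ESLib Fermat.Agent.ESLib.P
  Fermat.Agent.S34Lib Matrix
open Fermat.Agent.S36Lib (KillsLevel kap_nu_eq_pow)

theorem FM_killsLevel_cast {N N' N'' : ℕ} [NeZero N] [NeZero N'] [NeZero N''] (h : N' = N'')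
    {t₀ : TT0 N} (hk : KillsLevel N N' t₀) : KillsLevel N N'' t₀ := by
  subst h
  exact hk

/-- (FM) at level `q M` -/
theorem FM_core (M q p : ℕ) [NeZero M] [NeZero q] [Fact q.Prime] (hp : p.Prime)
    (hqM : ¬ q ∣ M) (hpq : p ≠ q) {r : ℕ} {b : Module.Basis (Fin r) ℤ (EP (q * M) ℤ)}
    (H : TrunkHyp (q * M)) {Θ₀ : TT0 (q * M) →+* Module.End ℤ (EP (q * M) ℤ)}
    (hTr : IsThetaTr Θ₀) (t₀ : TT0 (q * M)) (hk : KillsLevel (q * M) M t₀)
    (A : ValuationSubring Qb) (hA : A.LiesOverPrime q) (σ : GQ) (hσ : A.IsFrobeniusAt σ q)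
    (n : ℕ) (hm : 0 < p ^ n) :
    (rhoM b H hm σ * rhoM b H hm σ - (q : Matrix (Fin r) (Fin r) (ZMod (p ^ n))) ^ 2) *
      (rhoM b H hm σ * rhoM b H hm σ - 1) * redM p n (ThM b Θ₀ t₀) = 0 := by
  have H' : TrunkHyp M := (trunkHyp0 M).toTrunkHyp
  obtain ⟨r', b', Θ₀', -, hTr'⟩ := H'.theta
  have hdvd : ∀ ℓ : ℕ, ¬ ℓ ∣ q * M → ¬ ℓ ∣ M := fun ℓ hℓ hℓ' => hℓ (Dvd.dvd.mul_left hℓ' q)
  apply Matrix.mulVec_injective
  funext v
  rw [zero_mulVec, ← mulVec_mulVec]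
  set u : Fin r → ZMod (p ^ n) := redM p n (ThM b Θ₀ t₀) *ᵥ v with hu
  obtain ⟨f, hf⟩ := Kap.exists (b := b) H hm u
  obtain ⟨z₁, hz₁⟩ := kap_nu_eq_pow (b := b) b' H H' hm (nm M q)
    (fun f hf => isKum_nm M q hqM _ f hf) hTr hTr'
    (fun ℓ _ hℓ hℓN f f' hff => nm_heckeMul M q hqM hℓ hℓN f f' hff) hdvd hk (v := v) hf
  obtain ⟨z₂, hz₂⟩ := kap_nu_eq_pow (b := b) b' H H' hm
    ((nm M q).comp ((wq M q hqM : FB (q * M) ≃ₐ[Qb] FB (q * M)) : FB (q * M) →* FB (q * M)))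
    (fun f hf => isKum_nm M q hqM _ _ (isKum_wq M q hqM _ f hf)) hTr hTr'
    (fun ℓ _ hℓ hℓN f f' hff => nm_wq_heckeMul M q hqM hℓ hℓN f f' hff) hdvd hk (v := v) hf
  obtain ⟨w, hw⟩ := frob_kummer M q hqM hp hpq A hA σ hσ n f (hf.isKum H hm) z₁ z₂ hz₁ hz₂
  set g := rhoM b H hm σ with hg
  have h1 := rhoM_spec H hm σ hf
  have h2 := rhoM_spec H hm σ h1
  have h3 := rhoM_spec H hm σ h2
  have h4 := rhoM_spec H hm σ h3
  have h5 := h4.mul H hm (hf.pow H hm (q ^ 2))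
  have h6 := h2.pow H hm (q ^ 2 + 1)
  have hw0 : w ≠ 0 := by
    rintro rfl
    apply h5.ne_zero H hm
    rw [hw, zero_pow hm.ne', zero_mul]
  rw [hw] at h5
  have h7 := h5.unique H hm (h6.pow_mul H hm hw0)
  rw [← hg] at h7
  have e1 : ∀ x : Fin r → ZMod (p ^ n),
      ((q : Matrix (Fin r) (Fin r) (ZMod (p ^ n))) ^ 2) *ᵥ x = (q ^ 2) • x := by
    intro x
    rw [← Nat.cast_pow, natCast_mulVec, Nat.cast_smul_eq_nsmul]
  have e2 : (g * g - 1) *ᵥ u = g *ᵥ (g *ᵥ u) - u := by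
    rw [sub_mulVec, one_mulVec, ← mulVec_mulVec]
  have h8 : g *ᵥ (g *ᵥ (g *ᵥ (g *ᵥ u))) = (q ^ 2 + 1) • (g *ᵥ (g *ᵥ u)) - (q ^ 2) • u :=
    eq_sub_of_add_eq h7
  rw [← mulVec_mulVec, e2, sub_mulVec, e1, ← mulVec_mulVec, mulVec_sub, mulVec_sub, h8, smul_sub,
    add_smul, one_smul]
  abel

/-- **(FM)** -/
theorem fmStatement : FMStatement := by
  intro N p _ _
  have hp : p.Prime := Fact.out
  have H : TrunkHyp N := (trunkHyp0 N).toTrunkHyp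
  obtain ⟨r, b, Θ₀, hinj, hTr⟩ := H.theta
  refine ⟨r, P.ThM b Θ₀, fun n => P.rhoM b H (pow_pos hp.pos n), P.isESData p H hinj hTr, ?_⟩
  intro q hq hqp hqN hq2 _ t₀ hk A hA σ hσ n
  obtain ⟨M, rfl⟩ := hqN
  have hM0 : M ≠ 0 := by
    rintro rfl
    exact NeZero.ne (q * 0) (mul_zero q)
  haveI : NeZero M := ⟨hM0⟩
  haveI : NeZero q := ⟨hq.ne_zero⟩
  haveI : Fact q.Prime := ⟨hq⟩
  have hqM : ¬ q ∣ M := by
    intro hd
    apply hq2
    rw [pow_two]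
    exact Nat.mul_dvd_mul_left q hd
  exact FM_core M q p hp hqM hqp.symm H hTr t₀
    (FM_killsLevel_cast (Nat.mul_div_cancel_left M hq.pos) hk) A hA σ hσ n _

end Fermat.Agent.S35Lib
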