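import Fermat.Agent.S35.Wiring
import Fermat.Agent.S35.Trunk
import Fermat.Agent.SMO.Killer

/-!
# S35 library: the frozen statement S35 from `fmStatement` and `smoStatement`
-/

set_option autoImplicit false
set_option synthInstance.maxHeartbeats 400000

noncomputable section

namespace Fermat.Agent.S35Lib

open IsLocalRing Polynomial CuspForm
open Fermat.Agent.S53Lib Fermat.Agent.S31Lib
open Fermat.Agent.ESLib (TT0 IsESData redM)
open Fermat.Agent.SMOLib (PI evT evT_X exists_killer)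

/-- the inclusion into `TT0 N` of a polynomial in the `T_ℓ`, `ℓ ∉ S` -/
theorem FIN_incT_evT (N : ℕ) [NeZero N] (S : Finset ℕ)
    (hNS : ∀ q : ℕ, q.Prime → q ∣ N → q ∈ S) (P : MvPolynomial (PI S) ℤ) :
    incT hNS (evT N S hNS P) = MvPolynomial.aeval (fun i : PI S =>
      (heckeAlgebra.T i.2.1 (fun h => i.2.2 (hNS _ i.2.1 h)) (fun h => i.2.2 (hNS _ i.2.1 h)) :
        TT0 N)) P := by
  have : (MvPolynomial.aeval (fun i : PI S =>
      (heckeAlgebra.T i.2.1 (fun h => i.2.2 (hNS _ i.2.1 h)) (fun h => i.2.2 (hNS _ i.2.1 h)) :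
        TT0 N)) : MvPolynomial (PI S) ℤ →ₐ[ℤ] TT0 N) =
      (Subalgebra.inclusion (heckeAlgebra_le_TT0 hNS)).comp (evT N S hNS) := by
    apply MvPolynomial.algHom_ext
    intro x
    rw [MvPolynomial.aeval_X, AlgHom.comp_apply, evT_X]
    rfl
  rw [this]
  rfl

theorem FIN_comm {B : Type*} [Ring B] (g Z : B) (q : ℕ) (h : g * Z = Z * g) :
    (g * g - (q : B) ^ 2) * (g * g - 1) * Z = Z * (g ^ 2 - (q : B) ^ 2) * (g ^ 2 - 1) := by
  have h2 : g * g * Z = Z * (g * g) := by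
    rw [mul_assoc, h, ← mul_assoc, h, mul_assoc]
  have hq : (q : B) ^ 2 * Z = Z * (q : B) ^ 2 := by
    rw [← Nat.cast_pow]
    exact (Nat.cast_commute _ Z).eq
  have h3 : (g * g - 1) * Z = Z * (g * g - 1) := by
    rw [sub_mul, mul_sub, h2, one_mul, mul_one]
  have h4 : (g * g - (q : B) ^ 2) * Z = Z * (g * g - (q : B) ^ 2) := by
    rw [sub_mul, mul_sub, h2, hq]
  rw [mul_assoc, h3, ← mul_assoc, h4, pow_two g]

/-- **S35** -/
theorem s35_final
    {M : ℕ} [NeZero M] {g : CuspForm (CongruenceSubgroup.Gamma0 M) 2} (hg : g.IsNewform)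
    (lam : ℕ) [Fact lam.Prime]
    (S : Finset ℕ)
    (O' : Type) [CommRing O'] [IsDomain O'] [IsDiscreteValuationRing O']
    [IsAdicComplete (IsLocalRing.maximalIdeal O') O'] [Finite (IsLocalRing.ResidueField O')]
    [CharZero O'] (hlamO' : (lam : O') ∈ IsLocalRing.maximalIdeal O')
    (chig : CuspForm.heckeAlgebra M 2 (↑S : Set ℕ) →+* ℂ)
    (hchig : ∀ (ℓ : ℕ) (hℓ : ℓ.Prime) (hℓM : ¬ ℓ ∣ M) (hℓS : ℓ ∉ (↑S : Set ℕ)),
      chig (CuspForm.heckeAlgebra.T hℓ hℓM hℓS) = ModularFormClass.qCoeff g ℓ)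
    (iota : chig.range →+* O')
    (hlamS : lam ∈ S) (hMS : ∀ q : ℕ, q.Prime → q ∣ M → q ∈ S) :
    ∃ (O'' : Type) (_ : CommRing O'') (_ : IsDomain O'') (_ : IsDiscreteValuationRing O'')
      (_ : IsAdicComplete (IsLocalRing.maximalIdeal O'') O'') (_ : Finite (IsLocalRing.ResidueField O''))
      (_ : CharZero O'') (_ : Algebra O' O'') (_ : Module.Finite O' O'') (_ : IsLocalHom (algebraMap O' O'')),
      Function.Injective (algebraMap O' O'') ∧
      ∃ ρ : GaloisRepAdic O'',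
        (∀ (ℓ : ℕ) (hℓ : ℓ.Prime) (hℓM : ¬ ℓ ∣ M) (hℓS : ℓ ∉ (↑S : Set ℕ)),
          ∀ A : ValuationSubring (AlgebraicClosure ℚ), A.LiesOverPrime ℓ →
            ∀ σ : AlgebraicClosure ℚ ≃ₐ[ℚ] AlgebraicClosure ℚ, A.IsFrobeniusAt σ ℓ →
              LinearMap.charpoly (ρ.ρ σ) =
                X ^ 2 - C (algebraMap O' O'' ((iota.comp chig.rangeRestrict) (CuspForm.heckeAlgebra.T hℓ hℓM hℓS))) * X
                  + C ((ℓ : O''))) ∧
        (∀ q : ℕ, q.Prime → q ≠ lam → q ∣ M → ¬ q ^ 2 ∣ M →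
          ∀ A : ValuationSubring (AlgebraicClosure ℚ), A.LiesOverPrime q →
            ∀ σ : AlgebraicClosure ℚ ≃ₐ[ℚ] AlgebraicClosure ℚ, A.IsFrobeniusAt σ q →
              LinearMap.charpoly (ρ.ρ σ) = X ^ 2 - C ((q : O'') + 1) * X + C ((q : O'')) ∨
              LinearMap.charpoly (ρ.ρ σ) = X ^ 2 + C ((q : O'') + 1) * X + C ((q : O''))) :=
  s35_of_fm fmStatement Fermat.Agent.SMOLib.smoStatement hg lam S O' hlamO' chig hchig iota hlamS hMS

end Fermat.Agent.S35Lib
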