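import Fermat.Agent.S34.ModDefs
import Fermat.Agent.S34.Frob
import Fermat.Prelude.Def_AlgebraicCurve_Correspondence

/-!
# S35 library: definitions

* `nm M q` : the norm `FB (q M) → FB M` along `π₁`
* `frK`, `FrT`, `FrS` : the Frobenius of the residue field `kk A`, the coefficientwise Frobenius of
  `FT A M` (a ring automorphism), and the same as a semilinear automorphism
-/

set_option autoImplicit false
set_option synthInstance.maxHeartbeats 400000
set_option linter.style.haveILetI false

open AlgebraicCurve IntermediateField Polynomial ModularCurve CongruenceSubgroup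
  Fermat.Agent.S24Lib Fermat.Agent.FFLib Fermat.Agent.S18Lib Fermat.Agent.S28Lib
  Fermat.Agent.ESLib Fermat.Agent.S34Lib

namespace Fermat.Agent.S35Lib

noncomputable section

/-- the norm `FB (q M) → FB M` along `π₁^*` -/
def nm (M q : ℕ) [NeZero M] [NeZero q] : FB (q * M) →* FB M :=
  letI := algebraAlong (pi1 M q)
  Algebra.norm (FB M)

theorem nm_def (M q : ℕ) [NeZero M] [NeZero q] (f : FB (q * M)) :
    nm M q f = (letI := algebraAlong (pi1 M q); Algebra.norm (FB M) f) := rfl

variable (M q : ℕ) [hqF : Fact q.Prime] (A : ValuationSubring Qb) (hA : A.LiesOverPrime q)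

/-- the Frobenius automorphism `c ↦ c ^ q` of the residue field -/
def frK : kk A ≃+* kk A :=
  haveI : CharP (kk A) q := Fermat.Agent.S18Lib.charP_kk A hA
  haveI : IsAlgClosed (kk A) := isAlgClosed_kk A
  frobeniusEquiv (kk A) q

theorem frK_apply (c : kk A) : frK q A hA c = c ^ q := by
  haveI : CharP (kk A) q := Fermat.Agent.S18Lib.charP_kk A hA
  haveI : IsAlgClosed (kk A) := isAlgClosed_kk A
  exact frobeniusEquiv_apply (kk A) q c

theorem coe_frK :
    haveI : CharP (kk A) q := Fermat.Agent.S18Lib.charP_kk A hA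
    ((frK q A hA : kk A ≃+* kk A) : kk A →+* kk A) = frobenius (kk A) q := by
  haveI : CharP (kk A) q := Fermat.Agent.S18Lib.charP_kk A hA
  ext c
  exact frK_apply q A hA c

/-- the coefficientwise Frobenius of `FT A M` -/
def FrT : FT A M ≃+* FT A M where
  toFun y := ⟨coeffMap ((frK q A hA : kk A ≃+* kk A) : kk A →+* kk A) (y : LaurentSeries (kk A)),
    FR_coeffMap_mem M A _ _ y.2⟩
  invFun y := ⟨coeffMap (((frK q A hA).symm : kk A ≃+* kk A) : kk A →+* kk A)
    (y : LaurentSeries (kk A)), FR_coeffMap_mem M A _ _ y.2⟩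
  left_inv y := by
    apply Subtype.ext
    ext n
    simp [coeffMap_coeff]
  right_inv y := by
    apply Subtype.ext
    ext n
    simp [coeffMap_coeff]
  map_mul' x y := Subtype.ext (map_mul _ _ _)
  map_add' x y := Subtype.ext (map_add _ _ _)

theorem coe_FrT (y : FT A M) :
    ((FrT M q A hA y : FT A M) : LaurentSeries (kk A))
      = coeffMap ((frK q A hA : kk A ≃+* kk A) : kk A →+* kk A) (y : LaurentSeries (kk A)) := rfl

theorem FrT_algebraMap (c : kk A) :
    FrT M q A hA (algebraMap (kk A) (FT A M) c) = algebraMap (kk A) (FT A M) (frK q A hA c) := by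
  apply Subtype.ext
  rw [coe_FrT]
  show coeffMap _ (algebraMap (kk A) (LaurentSeries (kk A)) c)
    = algebraMap (kk A) (LaurentSeries (kk A)) _
  rw [algebraMap_laurentSeries_eq_single, algebraMap_laurentSeries_eq_single, coeffMap_single]
  rfl

/-- the coefficientwise Frobenius, as a semilinear automorphism -/
def FrS : SemilinearAut (kk A) (FT A M) :=
  ⟨(FrT M q A hA, frK q A hA), fun c => FrT_algebraMap M q A hA c⟩

theorem FrS_smul (y : FT A M) : FrS M q A hA • y = FrT M q A hA y := rfl

end

end Fermat.Agent.S35Lib
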