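import Fermat.Agent.S34.AbsGalois

/-!
# S35 package, ABSTRACT part, leaf (A1): a Frobenius-type automorphism acts on the toric part by `Q`

`t` is a semilinear automorphism of `F` which preserves `O`, acts on the reduction by `Fr`, fixes `x`
and such that `Fr` raises the values at the nodes to the `Q`-th power.  Then for every `u ∈ O` with
`red u = 1` and `r ∣ div u` the function `t u / u ^ Q` is an `r`-th power.
-/

set_option autoImplicit false

open AlgebraicCurve IntermediateField Polynomial Fermat.Agent.S24Lib Fermat.Agent.FFLib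
  Fermat.Agent.S18Lib Fermat.Agent.S34Lib

namespace Fermat.Agent.S35Lib

section A1

variable {K k F Ft : Type*} [Field K] [Field k] [Field F] [Algebra K F] [Field Ft] [Algebra k Ft]
  {A : ValuationSubring K} {resK : A →+* k}

theorem A1_pow_mem {E : Divisor K F} {f : F} (hf : f ∈ riemannRochSpace E) (n : ℕ) :
    f ^ n ∈ riemannRochSpace (n • E) := by
  induction n with
  | zero =>
    rw [pow_zero, zero_smul, mem_L_iff]
    intro v
    right
    simp [v.ord_one]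
  | succ n ih =>
    rw [pow_succ, succ_nsmul]
    exact T1d_mul_mem ih hf

theorem frob_toric (hF : IsFF K F) (hFt : IsFF k Ft) [IsAlgClosed K] [IsAlgClosed k]
    (hres : Function.Surjective resK)
    (R : RedG A resK F (Ft × Ft)) (x : R.O) (hx₁ : Transcendental k (R.red x).1)
    (hx₂ : Transcendental k (R.red x).2)
    (S : Finset (Place k Ft × Place k Ft)) (n₀ : ℕ)
    (hS : IsNodeData (R.red x).1 (R.red x).2 S) (hW : HW R hres x S n₀)
    (r : ℕ) (hr : (r : k) ≠ 0)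
    (Q : ℕ) (t : SemilinearAut K F) (Fr : Ft × Ft → Ft × Ft)
    (ht : ∀ y : R.O, ∃ h : t • ((y : R.O) : F) ∈ R.O, R.red ⟨_, h⟩ = Fr (R.red y))
    (htx : t • ((x : R.O) : F) = x)
    (hFr : ∀ s ∈ S, ∀ (n : ℕ) (φ : Ft × Ft), φ ∈ Lt k (R.red x).1 (R.red x).2 n →
      evP s.1 (Fr φ).1 = evP s.1 φ.1 ^ Q ∧ evP s.2 (Fr φ).2 = evP s.2 φ.2 ^ Q)
    (u : R.O) (hu : R.red u = 1) (hur : ∀ v : Place K F, (r : ℤ) ∣ v.ord ((u : R.O) : F)) :
    ∃ w : F, t • ((u : R.O) : F) = w ^ r * ((u : R.O) : F) ^ Q := by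
  classical
  have hr0 : 0 < r := Nat.pos_of_ne_zero (by rintro rfl; simp at hr)
  -- `Fr 1 = 1`
  have hFr1 : Fr 1 = 1 := by
    obtain ⟨h, e⟩ := ht 1
    rw [map_one] at e
    rw [← e]
    have : (⟨t • (((1 : R.O) : R.O) : F), h⟩ : R.O) = 1 := by
      apply Subtype.ext
      show t • (1 : F) = 1
      exact smul_one t
    rw [this, map_one]
  -- inverse of `u`
  have huu : IsUnit u := R.isUnit_of_red u (by rw [hu]; exact isUnit_one)
  obtain ⟨ui, hui⟩ := huu.exists_right_inv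
  have hrui : R.red ui = 1 := by
    have := congrArg R.red hui
    rwa [map_mul, hu, one_mul, map_one] at this
  have huiF : ((u : R.O) : F) * ((ui : R.O) : F) = 1 := by
    have := congrArg (fun z : R.O => (z : F)) hui
    simpa using this
  have hu0 : ((u : R.O) : F) ≠ 0 := left_ne_zero_of_mul_eq_one huiF
  have hui0 : ((ui : R.O) : F) ≠ 0 := right_ne_zero_of_mul_eq_one huiF
  have huiF' : ((ui : R.O) : F) = ((u : R.O) : F)⁻¹ := eq_inv_of_mul_eq_one_right huiF
  -- `D`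
  set D : Divisor K F := GA_div K ((u : R.O) : F) r with hD
  have hDu : ∀ v : Place K F, v.ord ((u : R.O) : F) = r * D v := by
    intro v
    rw [hD, GA_div_apply hF, Int.mul_ediv_cancel' (hur v)]
  -- `t u`
  obtain ⟨htu, htured⟩ := ht u
  set u' : R.O := ⟨t • ((u : R.O) : F), htu⟩ with hu'
  have hu'red : R.red u' = 1 := by rw [hu', htured, hu, hFr1]
  have hu'F : ((u' : R.O) : F) = t • ((u : R.O) : F) := rfl
  have hu'0 : ((u' : R.O) : F) ≠ 0 := by
    rw [hu'F, Ne, smul_eq_zero_iff_eq]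
    exact hu0
  set D' : Divisor K F := GA_div K ((u' : R.O) : F) r with hD'
  have hDD' : ∀ v : Place K F, D' v = D (t⁻¹ • v) := by
    intro v
    rw [hD', hD, GA_div_apply hF, GA_div_apply hF, hu'F, GA_ord_smul]
  have hD'u : ∀ v : Place K F, v.ord ((u' : R.O) : F) = r * D' v := by
    intro v
    rw [hDD', ← hDu, hu'F, GA_ord_smul]
  -- `u'' = t u / u ^ Q`
  set u'' : R.O := u' * ui ^ Q with hu''
  have hu''red : R.red u'' = 1 := by
    rw [hu'', map_mul, map_pow, hu'red, hrui, one_pow, one_mul]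
  have hu''F : ((u'' : R.O) : F) = t • ((u : R.O) : F) * (((u : R.O) : F) ^ Q)⁻¹ := by
    rw [← inv_pow, ← huiF']
    rfl
  set D'' : Divisor K F := D' - Q • D with hD''
  have hD''u : ∀ v : Place K F, v.ord ((u'' : R.O) : F) = r * D'' v := by
    intro v
    rw [hu''F, ← hu'F, v.ord_mul hu'0 (inv_ne_zero (pow_ne_zero _ hu0)), v.ord_inv, ma_ord_pow,
      hD'u, hDu, hD'', Finsupp.sub_apply, Finsupp.smul_apply, nsmul_eq_mul]
    ring
  obtain ⟨c, hc0, n₁, hc⟩ := exists_twist hF hFt hres R x hx₁ hx₂ S n₀ hS hW r hr u hu D hDu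
  obtain ⟨c', -, n₁', hc'⟩ :=
    exists_twist hF hFt hres R x hx₁ hx₂ S n₀ hS hW r hr u' hu'red D' hD'u
  obtain ⟨c'', -, n₁'', hc''⟩ :=
    exists_twist hF hFt hres R x hx₁ hx₂ S n₀ hS hW r hr u'' hu''red D'' hD''u
  obtain ⟨m₁, hone⟩ := exists_glued_one hFt hx₁ hx₂ S hS
  set N : ℕ := max (max n₁ n₁') (max n₁'' m₁) with hN
  have hN1 : n₁ ≤ N := (le_max_left _ _).trans (le_max_left _ _)
  have hN2 : n₁' ≤ N := (le_max_right _ _).trans (le_max_left _ _)
  have hN3 : n₁'' ≤ N := (le_max_left _ _).trans (le_max_right _ _)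
  have hN4 : m₁ ≤ N := (le_max_right _ _).trans (le_max_right _ _)
  obtain ⟨φ, hφL, hφg, hφ1⟩ := hone N hN4 c
  obtain ⟨ψ, hψL, hψg, hψ1⟩ := hone N hN4 c''
  obtain ⟨a, haU, ha⟩ := (hc N hN1 φ).2 ⟨hφL, hφg⟩
  obtain ⟨b, hbU, hb⟩ := (hc'' N hN3 ψ).2 ⟨hψL, hψg⟩
  have rφ := Submodule.mem_prod.1 hφL
  have rψ := Submodule.mem_prod.1 hψL
  -- `c' = c ^ Q`
  have hcQ : ∀ s ∈ S, c' s = c s ^ Q := by
    intro s hs
    obtain ⟨hta, htared⟩ := ht a
    have hmem : ((⟨t • ((a : R.O) : F), hta⟩ : R.O) : F) ∈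
        riemannRochSpace (N • poleDiv K ((x : R.O) : F) + D') :=
      GA_smul_mem hF t _ htx N D D' hDD' haU
    have h3 := ((hc' N hN2 _).1 (red_mem_redSp hres hmem)).2 s hs
    rw [htared, ha, (hFr s hs N φ hφL).1, (hFr s hs N φ hφL).2, hφg s hs, hφ1 s hs] at h3
    simp only [mul_one, one_pow] at h3
    exact h3.symm
  -- `c' = c ^ Q * c''`
  have hc''1 : ∀ s ∈ S, c'' s = 1 := by
    intro s hs
    have hab : (((a ^ Q * b : R.O) : R.O) : F) ∈
        riemannRochSpace ((Q * N + N) • poleDiv K ((x : R.O) : F) + D') := by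
      have := T1d_mul_mem (A1_pow_mem haU Q) hbU
      have e : Q • (N • poleDiv K ((x : R.O) : F) + D) + (N • poleDiv K ((x : R.O) : F) + D'')
          = (Q * N + N) • poleDiv K ((x : R.O) : F) + D' := by
        rw [hD'', add_nsmul, mul_nsmul', smul_add]
        abel
      rw [e] at this
      exact this
    have hle : n₁' ≤ Q * N + N := hN2.trans (Nat.le_add_left _ _)
    have h3 := ((hc' (Q * N + N) hle _).1 (red_mem_redSp hres hab)).2 s hs
    have g1 := ge_zero_of_mem_L hFt rφ.1 s.1 (hS.fin₁ s hs)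
    have g2 := ge_zero_of_mem_L hFt rφ.2 s.2 (hS.fin₂ s hs)
    rw [map_mul, map_pow, ha, hb, Prod.fst_mul, Prod.snd_mul, Prod.pow_fst, Prod.pow_snd,
      evP_mul hFt s.1 (ev_ge_pow s.1 g1 Q) (ge_zero_of_mem_L hFt rψ.1 s.1 (hS.fin₁ s hs)),
      evP_mul hFt s.2 (ev_ge_pow s.2 g2 Q) (ge_zero_of_mem_L hFt rψ.2 s.2 (hS.fin₂ s hs)),
      evP_pow hFt s.1 g1, evP_pow hFt s.2 g2,
      hφg s hs, hψg s hs, hφ1 s hs, hψ1 s hs, hcQ s hs] at h3
    simp only [mul_one, one_pow] at h3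
    exact mul_left_cancel₀ (pow_ne_zero Q (hc0 s hs)) (by rw [h3, mul_one])
  have hV : ∃ n₃ : ℕ, ∀ n, n₃ ≤ n →
      redSp R hres (riemannRochSpace (n • poleDiv K ((x : R.O) : F) + D'')) =
      redSp R hres (riemannRochSpace (n • poleDiv K ((x : R.O) : F))) := by
    refine ⟨max n₁'' n₀, fun n hn => ?_⟩
    ext φ'
    rw [hc'' n ((le_max_left _ _).trans hn), hW n ((le_max_right _ _).trans hn)]
    refine and_congr_right fun _ => ⟨fun h s hs => ?_, fun h s hs => ?_⟩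
    · have := h s hs
      rwa [hc''1 s hs] at this
    · rw [hc''1 s hs]
      exact h s hs
  obtain ⟨w0, hw0, hw⟩ :=
    obstruction2 hF hFt hres R x hx₁ hx₂ S n₀ hS hW r hr u'' hu''red D'' hD''u hV
  have hu''0 : ((u'' : R.O) : F) ≠ 0 := by
    rw [hu''F]
    exact mul_ne_zero hu'0 (inv_ne_zero (pow_ne_zero _ hu0))
  obtain ⟨a0, ha0⟩ : ((u'' : R.O) : F) * (w0 ^ r)⁻¹ ∈ (algebraMap K F).range := by
    rw [← mem_L_zero_iff hF, mem_L_iff]
    intro v
    right
    have h1 := hw v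
    rw [v.ord_mul hu''0 (inv_ne_zero (pow_ne_zero _ hw0)), v.ord_inv, ma_ord_pow, hD''u, ← h1]
    simp
  obtain ⟨b0, hb0⟩ := IsAlgClosed.exists_pow_nat_eq a0 hr0
  refine ⟨algebraMap K F b0 * w0, ?_⟩
  have h1 : ((u'' : R.O) : F) = algebraMap K F a0 * w0 ^ r := by
    rw [ha0, mul_assoc, inv_mul_cancel₀ (pow_ne_zero _ hw0), mul_one]
  rw [mul_pow, ← map_pow, hb0, ← h1, hu''F, mul_assoc, inv_mul_cancel₀ (pow_ne_zero _ hu0), mul_one]

end A1

end Fermat.Agent.S35Lib
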