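import Fermat.Agent.S31.Unipotent
import Fermat.Agent.S36.Defs
import Fermat.Agent.S36.GLIota
import Fermat.Agent.S30
import Fermat.Agent.S22

/-!
# S35 library, (GL35): the frozen statement S35 from the trunk clause (FM) and strong multiplicity one

(FM): `(g² - q²)(g² - 1) Θ(t₀) = 0` on the trunk, `g = ρ_n(σ)`, `σ` a Frobenius lift at `q ‖ N`,
`t₀` a Hecke operator killing the level `N / q`.

With `T = g + q g⁻¹ = Θ(newton)` (weak Chebotarev) one has identically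
`(g² - q²)(g² - 1) = (T² - (q+1)²) g²`.
-/

set_option autoImplicit false
set_option synthInstance.maxHeartbeats 400000

noncomputable section

namespace Fermat.Agent.S35Lib

open IsLocalRing Polynomial CuspForm
open Fermat.Agent.S53Lib Fermat.Agent.S31Lib
open Fermat.Agent.ESLib (TT0 IsESData redM)
open Fermat.Agent.S36Lib (KillsLevel SMOStatement incS)

/-- the clause (FM) of the trunk -/
def FMStatement : Prop :=
  ∀ (N p : ℕ) [NeZero N] [Fact p.Prime],
    ∃ (r : ℕ) (Θ : TT0 N →+* Matrix (Fin r) (Fin r) ℤ)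
      (ρ : (n : ℕ) → GQ →* Matrix (Fin r) (Fin r) (ZMod (p ^ n))), IsESData N p r Θ ρ ∧
      ∀ (q : ℕ) (_ : q.Prime) (_ : q ≠ p) (_ : q ∣ N) (_ : ¬ q ^ 2 ∣ N) [NeZero (N / q)]
        (t₀ : TT0 N), KillsLevel N (N / q) t₀ →
        ∀ A : ValuationSubring (AlgebraicClosure ℚ), A.LiesOverPrime q →
        ∀ σ : GQ, A.IsFrobeniusAt σ q → ∀ n : ℕ,
          (ρ n σ * ρ n σ - (q : Matrix (Fin r) (Fin r) (ZMod (p ^ n))) ^ 2) *
            (ρ n σ * ρ n σ - 1) * redM p n (Θ t₀) = 0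

/-- the identity `(T² - (q+1)²) g² = (g² - q²)(g² - 1)` for `T = g + q g⁻¹` -/
theorem GL_identity {B : Type*} [Ring B] (g h : B) (q : ℕ) (hgh : g * h = 1) (hhg : h * g = 1) :
    ((g + (q : B) * h) * (g + (q : B) * h) - ((q : B) + 1) ^ 2) * (g * g) =
      (g * g - (q : B) ^ 2) * (g * g - 1) := by
  have hc : ∀ x : B, x * (q : B) = (q : B) * x := fun x => ((Nat.cast_commute q x).eq).symm
  have e1 : (g + (q : B) * h) * g = g * g + (q : B) := by
    rw [add_mul, mul_assoc, hhg, mul_one]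
  have e2 : (g + (q : B) * h) * (g * g + (q : B)) = (g * g + (q : B)) * (g + (q : B) * h) := by
    have a1 : h * (g * g) = g := by rw [← mul_assoc, hhg, one_mul]
    have a2 : g * g * h = g := by rw [mul_assoc, hgh, mul_one]
    simp only [add_mul, mul_add, mul_assoc, a1, hc]
    have a3 : g * (g * ((q : B) * h)) = (q : B) * g := by
      rw [← mul_assoc, ← mul_assoc, hc, mul_assoc, a2]
    rw [a3]
  have e3 : (g + (q : B) * h) * (g + (q : B) * h) * (g * g) = (g * g + (q : B)) * (g * g + (q : B)) := by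
    calc (g + (q : B) * h) * (g + (q : B) * h) * (g * g)
        = (g + (q : B) * h) * (((g + (q : B) * h) * g) * g) := by simp only [mul_assoc]
      _ = (g + (q : B) * h) * ((g * g + (q : B)) * g) := by rw [e1]
      _ = ((g + (q : B) * h) * (g * g + (q : B))) * g := by rw [mul_assoc]
      _ = (g * g + (q : B)) * ((g + (q : B) * h) * g) := by rw [e2, mul_assoc]
      _ = _ := by rw [e1]
  rw [sub_mul, e3]
  have hc2 : g * g * (q : B) = (q : B) * (g * g) := hc _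
  simp only [add_mul, mul_add, sub_mul, mul_sub, pow_two, one_mul, mul_one, hc2]
  have hc3 : g * g * ((q : B) * (q : B)) = (q : B) * (q : B) * (g * g) := by
    rw [← mul_assoc, hc2, mul_assoc, hc2, ← mul_assoc]
  abel_nf

variable {N : ℕ} [NeZero N] {S : Finset ℕ}

/-- the characteristic polynomial of a Frobenius lift at `q ‖ N`, from the clause (FM) -/
theorem charpoly_frob_of_trunk {p : ℕ} (hp : p.Prime) (hpS : p ∈ S)
    (hNS : ∀ q : ℕ, q.Prime → q ∣ N → q ∈ S) {r : ℕ}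
    {Θ : TT0 N →+* Matrix (Fin r) (Fin r) ℤ}
    {ρ : (n : ℕ) → GQ →* Matrix (Fin r) (Fin r) (ZMod (p ^ n))} (hES : IsESData N p r Θ ρ)
    {O : Type} [CommRing O] [IsDomain O] [IsLocalRing O] [IsNoetherianRing O]
    (hpO : (p : O) ∈ maximalIdeal O)
    (χ : heckeAlgebra N 2 (↑S : Set ℕ) →+* O) (ρ' : GaloisRepAdic O)
    (hfrob : ∀ (ℓ : ℕ) (hℓ : ℓ.Prime) (hℓN : ¬ ℓ ∣ N) (hℓS : ℓ ∉ (↑S : Set ℕ)),
      ∀ A : ValuationSubring (AlgebraicClosure ℚ), A.LiesOverPrime ℓ →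
        ∀ σ : GQ, A.IsFrobeniusAt σ ℓ →
          LinearMap.charpoly (ρ'.ρ σ) =
            X ^ 2 - C (χ (heckeAlgebra.T hℓ hℓN hℓS)) * X + C ((ℓ : O)))
    (q : ℕ) (hq : q.Prime) (hqp : q ≠ p)
    (P : ValuationSubring (AlgebraicClosure ℚ)) (hP : P.LiesOverPrime q)
    (σ : GQ) (hσ : P.IsFrobeniusAt σ q)
    (t₀ : heckeAlgebra N 2 (↑S : Set ℕ)) (ht₀ : χ t₀ ≠ 0)
    (hFM : ∀ m : ℕ, (ρ m σ * ρ m σ - (q : Matrix (Fin r) (Fin r) (ZMod (p ^ m))) ^ 2) *
      (ρ m σ * ρ m σ - 1) * redM p m (Θ (incT hNS t₀)) = 0) :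
    LinearMap.charpoly (ρ'.ρ σ) = X ^ 2 - C ((q : O) + 1) * X + C ((q : O)) ∨
      LinearMap.charpoly (ρ'.ρ σ) = X ^ 2 + C ((q : O) + 1) * X + C ((q : O)) := by
  obtain ⟨r', hc, ⟨e⟩⟩ := exists_ofMat_isEquiv ρ'
  have hconj : ∀ τ : GQ, LinearMap.charpoly (ρ'.ρ τ) = (r' τ).charpoly := by
    intro τ
    have hconj : e.toLinearEquiv.conj (ρ'.ρ τ) = (ofMat r' hc).ρ τ := by
      refine LinearMap.ext fun x => ?_
      rw [LinearEquiv.conj_apply_apply, e.map_apply τ (e.toLinearEquiv.symm x),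
        LinearEquiv.apply_symm_apply]
    rw [← LinearEquiv.charpoly_conj e.toLinearEquiv (ρ'.ρ τ), hconj]
    exact Matrix.charpoly_toLin' (r' τ)
  have hchar : ∀ (ℓ : ℕ) (hℓ : ℓ.Prime) (hℓN : ¬ ℓ ∣ N) (hℓS : ℓ ∉ (↑S : Set ℕ))
      (A : ValuationSubring (AlgebraicClosure ℚ)), A.LiesOverPrime ℓ → ∀ τ : GQ,
      A.IsFrobeniusAt τ ℓ →
      (r' τ).charpoly = X ^ 2 - C (χ (heckeAlgebra.T hℓ hℓN hℓS)) * X + C ((ℓ : O)) := by
    intro ℓ hℓ hℓN hℓS A hA τ hτ
    rw [← hfrob ℓ hℓ hℓN hℓS A hA τ hτ, hconj]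
  obtain ⟨c, hcb⟩ := exists_bound_trunk (p := p) (S := S) hNS hES.inj
  have hkrull : (⨅ n : ℕ, maximalIdeal O ^ n) = ⊥ :=
    Ideal.iInf_pow_eq_bot_of_isLocalRing _ (Ideal.IsPrime.ne_top inferInstance)
  -- the key congruences
  have key : ∀ n : ℕ, ((r' σ).trace ^ 2 - ((q : O) + 1) ^ 2) * χ t₀ ∈ maximalIdeal O ^ n ∧
      (r' σ).det - (q : O) ∈ maximalIdeal O ^ n := by
    intro n
    set m := n + c with hm
    obtain ⟨L₁, hL₁, hLr⟩ := hc n
    obtain ⟨L₂, hL₂, hLρ⟩ := hES.level m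
    obtain ⟨ω, ⟨Lω, hLωfd, hLω⟩, hωF, hωI⟩ := exists_cyclo_pow p hp m
    have hfd : FiniteDimensional ℚ (L₁ ⊔ L₂ ⊔ Lω : IntermediateField ℚ (AlgebraicClosure ℚ)) := by
      have : FiniteDimensional ℚ (L₁ ⊔ L₂ : IntermediateField ℚ (AlgebraicClosure ℚ)) :=
        IntermediateField.finiteDimensional_sup _ _
      exact IntermediateField.finiteDimensional_sup _ _
    obtain ⟨U, hUo, hUn, hU⟩ := exists_open_normal_le _ hfd
    obtain ⟨ℓ, A, τ, k, -, hℓ, hℓS, hA, hτ, hk, -⟩ := weakCheb U hUo hUn σ S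
    have hℓN : ¬ ℓ ∣ N := fun h => hℓS (hNS ℓ hℓ h)
    have hℓS' : ℓ ∉ (↑S : Set ℕ) := by simpa using hℓS
    have hℓp : ℓ ≠ p := fun h => hℓS (h ▸ hpS)
    have hu1 : ∀ i j, (r' (σ⁻¹ * τ ^ k) - 1) i j ∈ maximalIdeal O ^ n :=
      hLr _ fun x hx => hU _ hk x (le_sup_left (b := Lω) (le_sup_left (b := L₂) hx))
    have hu2 : ρ m (σ⁻¹ * τ ^ k) = 1 :=
      hLρ _ fun x hx => hU _ hk x (le_sup_left (b := Lω) (le_sup_right (a := L₁) hx))
    have hu3 : ω (σ⁻¹ * τ ^ k) = 1 :=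
      hLω _ fun x hx => hU _ hk x (le_sup_right (a := L₁ ⊔ L₂) hx)
    have hτσ : τ ^ k = σ * (σ⁻¹ * τ ^ k) := by group
    -- cyclotomic
    have hcyc : ((ℓ : ZMod (p ^ m)) ^ k) = (q : ZMod (p ^ m)) := by
      rw [map_mul, map_inv, inv_mul_eq_one, map_pow] at hu3
      have e2 := congrArg (fun u : (ZMod (p ^ m))ˣ => (u : ZMod (p ^ m))) hu3
      simp only [Units.val_pow_eq_pow_val] at e2
      rw [hωF ℓ hℓ hℓp A hA τ hτ, hωF q hq hqp P hP σ hσ] at e2
      exact e2.symm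
    have hcycM : (ℓ : Matrix (Fin r) (Fin r) (ZMod (p ^ m))) ^ k =
        (q : Matrix (Fin r) (Fin r) (ZMod (p ^ m))) := by
      have := congrArg (algebraMap (ZMod (p ^ m)) (Matrix (Fin r) (Fin r) (ZMod (p ^ m)))) hcyc
      simpa using this
    -- the trunk
    have hg : ρ m (τ ^ k) = ρ m σ := by rw [hτσ, map_mul, hu2, mul_one]
    have e2 : ρ m σ * ρ m σ⁻¹ = 1 := by rw [← map_mul, mul_inv_cancel, map_one]
    have e2' : ρ m σ⁻¹ * ρ m σ = 1 := by rw [← map_mul, inv_mul_cancel, map_one]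
    have hginv : ρ m ((τ ^ k)⁻¹) = ρ m σ⁻¹ := by
      have e1 : ρ m ((τ ^ k)⁻¹) * ρ m σ = 1 := by
        rw [← hg, ← map_mul, inv_mul_cancel, map_one]
      calc ρ m ((τ ^ k)⁻¹) = ρ m ((τ ^ k)⁻¹) * (ρ m σ * ρ m σ⁻¹) := by rw [e2, mul_one]
        _ = ρ m σ⁻¹ := by rw [← mul_assoc, e1, one_mul]
    set nw : heckeAlgebra N 2 (↑S : Set ℕ) := newton (heckeAlgebra.T hℓ hℓN hℓS') (ℓ : _) k with hnw
    have hnwM : redH r p m (Θ (incT hNS nw)) =
        ρ m σ + (q : Matrix (Fin r) (Fin r) (ZMod (p ^ m))) * ρ m σ⁻¹ := by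
      rw [hnw, newton_trunk hNS hES m hℓ hℓN hℓS' hℓp A τ hA hτ k, hg, hginv, hcycM]
    have hzero : redH r p (n + c) (Θ (incT hNS ((nw * nw - ((q : _) + 1) ^ 2) * t₀))) = 0 := by
      rw [map_mul, map_mul, map_mul, map_sub, map_sub, map_sub, map_mul, map_mul, map_mul, hnwM]
      simp only [map_pow, map_add, map_natCast, map_one]
      have h1 := GL_identity (ρ m σ) (ρ m σ⁻¹) q e2 e2'
      have h2 := hFM m
      rw [← h1] at h2
      have hcomm := hES.comm m σ (incT hNS t₀)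
      rw [redH_apply]
      set Z := redM p m (Θ (incT hNS t₀)) with hZ
      set g := ρ m σ with hgdef
      set gi := ρ m σ⁻¹ with hgidef
      set Xm := (g + (q : Matrix (Fin r) (Fin r) (ZMod (p ^ m))) * gi) *
        (g + (q : Matrix (Fin r) (Fin r) (ZMod (p ^ m))) * gi) -
        ((q : Matrix (Fin r) (Fin r) (ZMod (p ^ m))) + 1) ^ 2 with hXm
      have h3 : Xm * Z * (g * g) = 0 := by
        rw [← h2, mul_assoc, mul_assoc Xm (g * g) Z]
        congr 1
        rw [← mul_assoc, ← hcomm, mul_assoc, ← hcomm, mul_assoc]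
      calc Xm * Z = Xm * Z * (g * g) * (gi * gi) := by
            rw [mul_assoc (Xm * Z), mul_assoc g g, ← mul_assoc g gi gi, e2, one_mul, e2, mul_one]
        _ = 0 := by rw [h3, zero_mul]
    obtain ⟨t', ht'⟩ := hcb n _ hzero
    have e₁ : (r' (τ ^ k)).trace - (r' σ).trace ∈ maximalIdeal O ^ n := by
      rw [hτσ]
      exact trace_sub_trace_mem _ r' _ _ hu1
    have htrn : (r' (τ ^ k)).trace = χ nw := by
      rw [map_pow, trace_pow_eq_newton _ _ _ (hchar ℓ hℓ hℓN hℓS' A hA τ hτ), hnw, map_newton,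
        map_natCast]
    constructor
    · have e₂ : ((r' (τ ^ k)).trace ^ 2 - ((q : O) + 1) ^ 2) * χ t₀ ∈ maximalIdeal O ^ n := by
        have : ((r' (τ ^ k)).trace ^ 2 - ((q : O) + 1) ^ 2) * χ t₀ =
            χ ((nw * nw - ((q : _) + 1) ^ 2) * t₀) := by
          rw [htrn]
          simp only [map_mul, map_sub, map_pow, map_add, map_natCast, map_one]
          ring
        rw [this, ht', map_mul, map_pow, map_natCast]
        exact Ideal.mul_mem_right _ _ (Ideal.pow_mem_pow hpO n)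
      have : ((r' σ).trace ^ 2 - ((q : O) + 1) ^ 2) * χ t₀ =
          ((r' (τ ^ k)).trace ^ 2 - ((q : O) + 1) ^ 2) * χ t₀ -
          ((r' (τ ^ k)).trace - (r' σ).trace) * (((r' (τ ^ k)).trace + (r' σ).trace) * χ t₀) := by
        ring
      rw [this]
      exact Ideal.sub_mem _ e₂ (Ideal.mul_mem_right _ _ e₁)
    · have e₁ : (r' (τ ^ k)).det - (r' σ).det ∈ maximalIdeal O ^ n := by
        rw [hτσ]
        exact det_sub_det_mem _ r' _ _ hu1
      have hdet : (r' τ).det = (ℓ : O) := by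
        have h1 := Matrix.det_eq_sign_charpoly_coeff (r' τ)
        rw [hchar ℓ hℓ hℓN hℓS' A hA τ hτ] at h1
        simpa [coeff_X, coeff_C] using h1
      have e₂ : (r' (τ ^ k)).det - (q : O) ∈ maximalIdeal O ^ n := by
        rw [map_pow, Matrix.det_pow, hdet]
        have h1 : ((p ^ m : ℕ) : ℤ) ∣ (ℓ : ℤ) ^ k - (q : ℤ) := by
          rw [← ZMod.intCast_zmod_eq_zero_iff_dvd]
          push_cast
          rw [hcyc, sub_self]
        obtain ⟨b, hb⟩ := h1
        have h2 : (ℓ : O) ^ k - (q : O) = (p : O) ^ m * (b : O) := by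
          have := congrArg (Int.cast : ℤ → O) hb
          push_cast at this
          exact this
        rw [h2]
        exact Ideal.mul_mem_right _ _
          (Ideal.pow_le_pow_right (Nat.le_add_right n c) (Ideal.pow_mem_pow hpO m))
      have : (r' σ).det - (q : O) =
          ((r' (τ ^ k)).det - (q : O)) - ((r' (τ ^ k)).det - (r' σ).det) := by ring
      rw [this]
      exact Ideal.sub_mem _ e₂ e₁
  have htr : ((r' σ).trace ^ 2 - ((q : O) + 1) ^ 2) * χ t₀ = 0 := by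
    rw [← Ideal.mem_bot, ← hkrull, Ideal.mem_iInf]
    exact fun n => (key n).1
  have hdet : (r' σ).det = (q : O) := by
    rw [← sub_eq_zero, ← Ideal.mem_bot, ← hkrull, Ideal.mem_iInf]
    exact fun n => (key n).2
  have htr2 : ((r' σ).trace - ((q : O) + 1)) * ((r' σ).trace + ((q : O) + 1)) = 0 := by
    have := (mul_eq_zero.1 htr).resolve_right ht₀
    rw [← this]
    ring
  rcases mul_eq_zero.1 htr2 with h | h
  · left
    rw [hconj, Matrix.charpoly_fin_two, hdet, sub_eq_zero.1 h]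
  · right
    rw [hconj, Matrix.charpoly_fin_two, hdet, eq_neg_of_add_eq_zero_left h, C_neg]
    ring

/-- **S35** from the trunk clause (FM) and strong multiplicity one -/
theorem s35_of_fm (fm : FMStatement) (smo : SMOStatement)
    {M : ℕ} [NeZero M] {g : CuspForm (CongruenceSubgroup.Gamma0 M) 2} (hg : g.IsNewform)
    (lam : ℕ) [Fact lam.Prime]
    (S : Finset ℕ)
    (O' : Type) [CommRing O'] [IsDomain O'] [IsDiscreteValuationRing O']
    [IsAdicComplete (IsLocalRing.maximalIdeal O') O'] [Finite (IsLocalRing.ResidueField O')]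
    [CharZero O'] (hlamO' : (lam : O') ∈ IsLocalRing.maximalIdeal O')
    (chig : CuspForm.heckeAlgebra M 2 (↑S : Set ℕ) →+* ℂ)
    (hchig : ∀ (ℓ : ℕ) (hℓ : ℓ.Prime) (hℓM : ¬ ℓ ∣ M) (hℓS : ℓ ∉ (↑S : Set ℕ)),
      chig (CuspForm.heckeAlgebra.T hℓ hℓM hℓS) = ModularFormClass.qCoeff g ℓ)
    (iota : chig.range →+* O')
    (hlamS : lam ∈ S) (hMS : ∀ q : ℕ, q.Prime → q ∣ M → q ∈ S) :
    ∃ (O'' : Type) (_ : CommRing O'') (_ : IsDomain O'') (_ : IsDiscreteValuationRing O'')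
      (_ : IsAdicComplete (IsLocalRing.maximalIdeal O'') O'') (_ : Finite (IsLocalRing.ResidueField O''))
      (_ : CharZero O'') (_ : Algebra O' O'') (_ : Module.Finite O' O'') (_ : IsLocalHom (algebraMap O' O'')),
      Function.Injective (algebraMap O' O'') ∧
      ∃ ρ : GaloisRepAdic O'',
        (∀ (ℓ : ℕ) (hℓ : ℓ.Prime) (hℓM : ¬ ℓ ∣ M) (hℓS : ℓ ∉ (↑S : Set ℕ)),
          ∀ A : ValuationSubring (AlgebraicClosure ℚ), A.LiesOverPrime ℓ →
            ∀ σ : AlgebraicClosure ℚ ≃ₐ[ℚ] AlgebraicClosure ℚ, A.IsFrobeniusAt σ ℓ →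
              LinearMap.charpoly (ρ.ρ σ) =
                X ^ 2 - C (algebraMap O' O'' ((iota.comp chig.rangeRestrict) (CuspForm.heckeAlgebra.T hℓ hℓM hℓS))) * X
                  + C ((ℓ : O''))) ∧
        (∀ q : ℕ, q.Prime → q ≠ lam → q ∣ M → ¬ q ^ 2 ∣ M →
          ∀ A : ValuationSubring (AlgebraicClosure ℚ), A.LiesOverPrime q →
            ∀ σ : AlgebraicClosure ℚ ≃ₐ[ℚ] AlgebraicClosure ℚ, A.IsFrobeniusAt σ q →
              LinearMap.charpoly (ρ.ρ σ) = X ^ 2 - C ((q : O'') + 1) * X + C ((q : O'')) ∨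
              LinearMap.charpoly (ρ.ρ σ) = X ^ 2 + C ((q : O'') + 1) * X + C ((q : O''))) := by
  have hlam : lam.Prime := Fact.out
  obtain ⟨O'', i1, i2, i3, i4, i5, i6, i7, i8, i9, hinj, ρ, hρ, -⟩ :=
    Fermat.Agent.S30.result lam M S hlamS hMS O' hlamO' (iota.comp chig.rangeRestrict)
  refine ⟨O'', i1, i2, i3, i4, i5, i6, i7, i8, i9, hinj, ρ, hρ, ?_⟩
  intro q hq hqlam hqM hq2 A hA σ hσ
  obtain ⟨r, Θ, ρ₀, hES, hFM⟩ := fm M lam
  have hMq : M / q ≠ 0 := by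
    intro h
    rw [Nat.div_eq_zero_iff] at h
    rcases h with h | h
    · exact hq.ne_zero h
    · exact absurd (Nat.le_of_dvd (Nat.pos_of_ne_zero (NeZero.ne M)) hqM) (not_le.2 h)
  have : NeZero (M / q) := ⟨hMq⟩
  obtain ⟨t, ht, htne⟩ := smo hg S hMS chig hchig q hq hqM
  have : Module.Finite ℤ (CuspForm.heckeAlgebra M 2 (↑S : Set ℕ)) :=
    Fermat.Agent.S22.result M 2 (↑S : Set ℕ)
  have hiota := Fermat.Agent.S36Lib.gl_iota_injective chig iota
  have hlamO'' : (lam : O'') ∈ IsLocalRing.maximalIdeal O'' := by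
    have h1 : (lam : O'') = algebraMap O' O'' (lam : O') := by simp
    rw [h1]
    exact map_nonunit (algebraMap O' O'') _ hlamO'
  refine charpoly_frob_of_trunk hlam hlamS hMS hES hlamO''
    ((algebraMap O' O'').comp (iota.comp chig.rangeRestrict)) ρ hρ q hq hqlam A hA σ hσ t ?_
    (fun m => hFM q hq hqlam hqM hq2 _ ht A hA σ hσ m)
  intro h0
  apply htne
  have h1 : iota (chig.rangeRestrict t) = 0 := by
    apply hinj
    rw [map_zero]
    exact h0
  have h2 : chig.rangeRestrict t = 0 := by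
    apply hiota
    rw [map_zero]
    exact h1
  exact congrArg Subtype.val h2

end Fermat.Agent.S35Lib
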